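import Mathlib

/-!
# S56 / H734 : Hilbert 90 for cocycles of finite level on an infinite Galois group

`Ω / K` Galois (possibly infinite), `f : Gal(Ω/K) → Ω` a nowhere vanishing `1`-cocycle,
`f (σ τ) = f σ · σ (f τ)`, which is right-invariant under the fixing subgroup of a finite
subextension `E` ("finite level").  Then `f σ = σ α / α` for some `α ≠ 0`.
Proof: Poincaré series over `Gal(E'/K)`, `E'` the normal closure of `E`, and Dedekind's
independence of characters.  Mathlib only.
-/

set_option autoImplicit false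
set_option linter.style.haveILetI false

namespace Fermat.Agent.S56.H734

open IntermediateField

/-- **Hilbert 90 at finite level.** -/
theorem hilbert90_of_level {K Ω : Type*} [Field K] [Field Ω] [Algebra K Ω] [IsGalois K Ω]
    (f : (Ω ≃ₐ[K] Ω) → Ω) (hf0 : ∀ σ, f σ ≠ 0)
    (hf : ∀ σ τ, f (σ * τ) = f σ * σ (f τ))
    (E : IntermediateField K Ω) [FiniteDimensional K E]
    (hlev : ∀ σ τ : Ω ≃ₐ[K] Ω, (∀ x ∈ E, τ x = x) → f (σ * τ) = f σ) :
    ∃ α : Ω, α ≠ 0 ∧ ∀ σ : Ω ≃ₐ[K] Ω, f σ * σ α = α := by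
  classical
  -- pass to the normal closure
  let E' : IntermediateField K Ω := IntermediateField.normalClosure K E Ω
  have : Normal K E' := normalClosure.normal K E Ω
  have : FiniteDimensional K E' := normalClosure.is_finiteDimensional K E Ω
  have hEE' : E ≤ E' := E.le_normalClosure
  let res : (Ω ≃ₐ[K] Ω) →* (E' ≃ₐ[K] E') := AlgEquiv.restrictNormalHom E'
  have hres : Function.Surjective res := AlgEquiv.restrictNormalHom_surjective Ω
  let s : (E' ≃ₐ[K] E') → (Ω ≃ₐ[K] Ω) := Function.surjInv hres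
  have hs : ∀ γ, res (s γ) = γ := Function.surjInv_eq hres
  have hres_apply : ∀ (σ : Ω ≃ₐ[K] Ω) (x : E'), ((res σ x : E') : Ω) = σ (x : Ω) :=
    fun σ x => AlgEquiv.restrictNormal_commutes σ E' x
  -- `f` depends only on the restriction to `E'`
  have hdep : ∀ σ σ' : Ω ≃ₐ[K] Ω, res σ = res σ' → f σ = f σ' := by
    intro σ σ' h
    have h0 : σ' = σ * (σ⁻¹ * σ') := by group
    rw [h0]
    symm
    apply hlev
    intro x hx
    have h1 : res (σ⁻¹ * σ') = 1 := by rw [map_mul, map_inv, h, inv_mul_cancel]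
    have h2 := hres_apply (σ⁻¹ * σ') ⟨x, hEE' hx⟩
    rw [h1] at h2
    exact h2.symm
  letI : Fintype (E' ≃ₐ[K] E') := Fintype.ofFinite _
  -- Dedekind independence of the characters `γ : E' → Ω`
  let χ : (E' ≃ₐ[K] E') → (E' →* Ω) := fun γ =>
    ((algebraMap E' Ω).comp ((γ : E' →ₐ[K] E') : E' →+* E') : E' →+* Ω)
  have hχ : Function.Injective χ := by
    intro γ γ' h
    apply AlgEquiv.ext
    intro x
    have := DFunLike.congr_fun h x
    exact (algebraMap E' Ω).injective this
  have hli : LinearIndependent Ω (fun γ : E' ≃ₐ[K] E' => (χ γ : E' → Ω)) :=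
    (linearIndependent_monoidHom E' Ω).comp χ hχ
  have hne : ∑ γ : E' ≃ₐ[K] E', f (s γ) • (χ γ : E' → Ω) ≠ 0 := by
    intro h
    have := Fintype.linearIndependent_iff.1 hli (fun γ => f (s γ)) h 1
    exact hf0 _ this
  obtain ⟨θ, hθ⟩ : ∃ θ : E', ∑ γ : E' ≃ₐ[K] E', f (s γ) * ((γ θ : E') : Ω) ≠ 0 := by
    by_contra hcon
    push Not at hcon
    apply hne
    funext θ
    simpa [χ] using hcon θ
  refine ⟨_, hθ, fun τ => ?_⟩
  rw [map_sum, Finset.mul_sum]
  have key : ∀ γ : E' ≃ₐ[K] E', f τ * τ (f (s γ) * ((γ θ : E') : Ω)) =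
      f (s (res τ * γ)) * (((res τ * γ) θ : E') : Ω) := by
    intro γ
    have h1 : f (s (res τ * γ)) = f (τ * s γ) := by
      apply hdep
      rw [hs, map_mul, hs]
    rw [h1, hf, map_mul, ← mul_assoc]
    congr 1
    rw [AlgEquiv.mul_apply, hres_apply]
  simp only [key]
  exact Fintype.sum_bijective (fun γ => res τ * γ) (Group.mulLeft_bijective _) _ _ (fun γ => rfl)

end Fermat.Agent.S56.H734
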