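import Mathlib
import Fermat.Agent.S55.H413.WRPow

/-!
# S56 / H734 : `ℚ_pˣ = ⟨p, 1 + p⟩ · (ℚ_pˣ)^p` for odd `p`

Every nonzero `p`-adic number is of the form `p ^ i * (1 + p) ^ j * w ^ p`.
(Input of the Kummer count `dim H¹(G_{ℚ_p}, k(1)) ≤ 2`, sub-leaf KUMMER-P of LOC-SO / FLAT-O.)
-/

set_option autoImplicit false

namespace Fermat.Agent.S56.H734

theorem neg_le_natAbs' (i : ℤ) : -i ≤ (i.natAbs : ℤ) := by
  omega

/-- `(1 + a) ^ j = 1 + j a + a² r` in any commutative ring. -/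
theorem one_add_pow_eq (R : Type*) [CommRing R] (a : R) (j : ℕ) :
    ∃ r : R, (1 + a) ^ j = 1 + j * a + a ^ 2 * r := by
  induction j with
  | zero => exact ⟨0, by simp⟩
  | succ j ih =>
    obtain ⟨r, hr⟩ := ih
    refine ⟨r + r * a + j, ?_⟩
    rw [pow_succ, hr]
    push_cast
    ring

variable (p : ℕ) [hp : Fact p.Prime]

/-- Units of `ℤ_p` (odd `p`) are of the form `(1 + p) ^ j * w ^ p`. -/
theorem padicInt_unit_eq (hp2 : p ≠ 2) (u : ℤ_[p]ˣ) :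
    ∃ (j : ℕ) (w : ℤ_[p]ˣ), (u : ℤ_[p]) = (1 + (p : ℤ_[p])) ^ j * (w : ℤ_[p]) ^ p := by
  have hp1 : 1 ≤ p := hp.out.one_lt.le
  -- `v = u ^ (-(p - 1))`, `u = u ^ p * v`
  set v : ℤ_[p]ˣ := (u ^ (p - 1))⁻¹ with hv
  have huv : u = u ^ p * v := by
    rw [hv]
    have : u ^ p = u * u ^ (p - 1) := by
      rw [← pow_succ', Nat.sub_add_cancel hp1]
    rw [this, mul_assoc, mul_inv_cancel, mul_one]
  -- `v ≡ 1 mod p`
  have hv1 : PadicInt.toZMod ((v : ℤ_[p])) = 1 := by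
    have hu0 : PadicInt.toZMod (u : ℤ_[p]) ≠ 0 := by
      have : IsUnit (PadicInt.toZMod (u : ℤ_[p])) := (u.isUnit).map _
      exact this.ne_zero
    have h1 : PadicInt.toZMod ((u ^ (p - 1) : ℤ_[p]ˣ) : ℤ_[p]) = 1 := by
      rw [Units.val_pow_eq_pow_val, map_pow]
      exact ZMod.pow_card_sub_one_eq_one hu0
    have h2 : PadicInt.toZMod ((u ^ (p - 1) : ℤ_[p]ˣ) : ℤ_[p]) *
        PadicInt.toZMod ((v : ℤ_[p])) = 1 := by
      rw [← map_mul, ← Units.val_mul, hv, mul_inv_cancel, Units.val_one, map_one]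
    rw [h1, one_mul] at h2
    exact h2
  -- `v = 1 + p s`
  obtain ⟨s, hs⟩ : ∃ s : ℤ_[p], (v : ℤ_[p]) = 1 + p * s := by
    have hmem : (v : ℤ_[p]) - 1 ∈ RingHom.ker (PadicInt.toZModPow (p := p) 1) := by
      rw [PadicInt.ker_toZModPow, pow_one, ← PadicInt.maximalIdeal_eq_span_p,
        ← PadicInt.ker_toZMod, RingHom.mem_ker, map_sub, hv1, map_one, sub_self]
    rw [PadicInt.ker_toZModPow, pow_one, Ideal.mem_span_singleton] at hmem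
    obtain ⟨s, hs⟩ := hmem
    exact ⟨s, by rw [← hs]; ring⟩
  -- `s = j + p s'`
  obtain ⟨j, -, hj⟩ := PadicInt.exists_mem_range (p := p) s
  obtain ⟨s', hs'⟩ : ∃ s' : ℤ_[p], s = j + p * s' := by
    rw [PadicInt.maximalIdeal_eq_span_p, Ideal.mem_span_singleton] at hj
    obtain ⟨s', hs'⟩ := hj
    exact ⟨s', by rw [← hs']; ring⟩
  obtain ⟨r, hr⟩ := one_add_pow_eq ℤ_[p] (p : ℤ_[p]) j
  -- the unit `e = (1 + p) ^ j`
  have he1 : IsUnit ((1 + (p : ℤ_[p])) ^ j) := by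
    apply IsUnit.pow
    rw [PadicInt.isUnit_iff]
    have hlt : ‖(p : ℤ_[p])‖ < 1 := by
      rw [PadicInt.norm_p]
      exact inv_lt_one_of_one_lt₀ (by exact_mod_cast hp.out.one_lt)
    have h1 : ‖(1 : ℤ_[p])‖ = 1 := norm_one
    have hne : ‖(1 : ℤ_[p])‖ ≠ ‖(p : ℤ_[p])‖ := by rw [h1]; exact hlt.ne'
    rw [PadicInt.norm_add_eq_max_of_ne hne, h1]
    exact max_eq_left hlt.le
  obtain ⟨e, he⟩ := he1
  -- `v e⁻¹ ≡ 1 mod p²`
  have hve : PadicInt.toZModPow 2 ((v * e⁻¹ : ℤ_[p]ˣ) : ℤ_[p]) = 1 := by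
    have hdiff : (v : ℤ_[p]) - e = p ^ 2 * (s' - r) := by
      rw [hs, he, hr, hs']
      ring
    have hmem : ((v * e⁻¹ : ℤ_[p]ˣ) : ℤ_[p]) - 1 ∈
        RingHom.ker (PadicInt.toZModPow (p := p) 2) := by
      rw [PadicInt.ker_toZModPow, Ideal.mem_span_singleton]
      refine ⟨(s' - r) * ((e⁻¹ : ℤ_[p]ˣ) : ℤ_[p]), ?_⟩
      have h1 : ((v * e⁻¹ : ℤ_[p]ˣ) : ℤ_[p]) - 1 =
          ((v : ℤ_[p]) - e) * ((e⁻¹ : ℤ_[p]ˣ) : ℤ_[p]) := by
        rw [Units.val_mul, sub_mul, Units.mul_inv]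
      rw [h1, hdiff]
      ring
    rw [RingHom.mem_ker, map_sub, map_one, sub_eq_zero] at hmem
    exact hmem
  obtain ⟨w₀, hw₀⟩ := Fermat.Agent.S55.H413.exists_pow_totient_eq p hp2 2 (by norm_num)
    (v * e⁻¹) hve
  have htot : (p ^ 2).totient = (p - 1) * p := by
    rw [Nat.totient_prime_pow hp.out (by norm_num : 0 < 2)]
    simp [mul_comm]
  refine ⟨j, u * w₀ ^ (p - 1), ?_⟩
  have hfinal : u = e * (u * w₀ ^ (p - 1)) ^ p := by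
    have hv' : v = e * (w₀ ^ (p - 1)) ^ p := by
      rw [← pow_mul, ← htot, hw₀]
      simp
    calc u = u ^ p * v := huv
      _ = u ^ p * (e * (w₀ ^ (p - 1)) ^ p) := by rw [← hv']
      _ = e * (u * w₀ ^ (p - 1)) ^ p := by rw [mul_pow]; ac_rfl
  have := congrArg (fun z : ℤ_[p]ˣ => (z : ℤ_[p])) hfinal
  simp only [Units.val_mul, Units.val_pow_eq_pow_val] at this
  rw [he] at this
  simpa [Units.val_mul, Units.val_pow_eq_pow_val] using this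

/-- **`ℚ_pˣ = ⟨p, 1 + p⟩ · (ℚ_pˣ)^p`** for odd `p`. -/
theorem padic_eq_pow_mul (hp2 : p ≠ 2) (x : ℚ_[p]) (hx : x ≠ 0) :
    ∃ (i : ℤ) (j : ℕ) (w : ℚ_[p]), w ≠ 0 ∧
      x = (p : ℚ_[p]) ^ i * (1 + (p : ℚ_[p])) ^ j * w ^ p := by
  have hp0 : (p : ℚ_[p]) ≠ 0 := by exact_mod_cast hp.out.ne_zero
  set n : ℤ := x.valuation with hn
  set y : ℚ_[p] := x * (p : ℚ_[p]) ^ (-n) with hy
  have hynorm : ‖y‖ = 1 := by
    rw [hy, norm_mul, Padic.norm_eq_zpow_neg_valuation hx, norm_zpow, Padic.norm_p,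
      ← hn, inv_zpow', neg_neg, ← zpow_add₀ (by exact_mod_cast hp.out.ne_zero : (p : ℝ) ≠ 0)]
    simp
  obtain ⟨j, w, hw⟩ := padicInt_unit_eq p hp2 (PadicInt.mkUnits hynorm)
  refine ⟨n, j, (w : ℤ_[p]), ?_, ?_⟩
  · have : (w : ℤ_[p]) ≠ 0 := w.ne_zero
    exact fun h => this (PadicInt.coe_eq_zero.mp h)
  · have hy' : y = (1 + (p : ℚ_[p])) ^ j * ((w : ℤ_[p]) : ℚ_[p]) ^ p := by
      have h1 := congrArg (fun z : ℤ_[p] => (z : ℚ_[p])) hw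
      simp only [PadicInt.mkUnits_eq] at h1
      rw [h1]
      push_cast
      rfl
    have hx' : x = (p : ℚ_[p]) ^ n * y := by
      rw [hy, mul_comm x, ← mul_assoc, ← zpow_add₀ hp0]
      simp
    rw [hx', hy', mul_assoc]

/-- Variant with a natural exponent of `p`. -/
theorem padic_eq_pow_mul_nat (hp2 : p ≠ 2) (x : ℚ_[p]) (hx : x ≠ 0) :
    ∃ (i j : ℕ) (w : ℚ_[p]), w ≠ 0 ∧
      x = (p : ℚ_[p]) ^ i * (1 + (p : ℚ_[p])) ^ j * w ^ p := by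
  have hp0 : (p : ℚ_[p]) ≠ 0 := by exact_mod_cast hp.out.ne_zero
  obtain ⟨i, j, w, hw, hx'⟩ := padic_eq_pow_mul p hp2 x hx
  -- `i = i' - p * N` with `i' ≥ 0`
  set N : ℕ := i.natAbs with hN
  have hi' : 0 ≤ i + p * N := by
    have h1 : (1 : ℤ) ≤ p := by exact_mod_cast hp.out.one_lt.le
    have h2 : -i ≤ (N : ℤ) := by rw [hN]; exact neg_le_natAbs' i
    have h3 : (0 : ℤ) ≤ (N : ℤ) := Int.natCast_nonneg N
    nlinarith [neg_le_natAbs' i]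
  obtain ⟨i', hi'eq⟩ := Int.eq_ofNat_of_zero_le hi'
  refine ⟨i', j, w * ((p : ℚ_[p]) ^ N)⁻¹, mul_ne_zero hw (inv_ne_zero (pow_ne_zero _ hp0)), ?_⟩
  have h3 : (p : ℚ_[p]) ^ i = (p : ℚ_[p]) ^ i' * (((p : ℚ_[p]) ^ N)⁻¹) ^ p := by
    have : i = (i' : ℤ) - p * N := by rw [← hi'eq]; ring
    rw [this, zpow_sub₀ hp0, zpow_natCast, inv_pow, ← pow_mul, div_eq_mul_inv]
    congr 2
    rw [mul_comm, ← zpow_natCast]
    push_cast
    rfl
  rw [hx', h3, mul_pow]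
  ring

end Fermat.Agent.S56.H734
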