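import Mathlib
import Fermat.Agent.S56.Defs
import Fermat.Agent.S56.H734.PadicPow
import Fermat.Agent.S56.H734.Hilbert90Level

/-!
# S56 / H734 : Kummer count at `p`, core (`𝔽_p`-coefficients, abstract local datum)

`D ≤ G_ℚ` is the image of `loc : Gal(ℚ̄_p/ℚ_p) → G_ℚ`, compatible with an embedding
`ι : ℚ̄ → ℚ̄_p`.  Every twisted cocycle `c : D → 𝔽_p(1)` of finite level is, on `D`,
`x κ₁ + y κ₂ + coboundary`, where `κ₁, κ₂` are the Kummer cocycles of `p` and `1 + p`.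
-/

set_option autoImplicit false
set_option linter.style.haveILetI false

namespace Fermat.Agent.S56.H734

open Fermat.Agent.S56

section Roots

variable {p : ℕ} [hp : Fact p.Prime]

theorem pow_mod_of_isPrimitiveRoot {F : Type*} [Field F] {ζ : F} (hζ : IsPrimitiveRoot ζ p)
    (n : ℕ) : ζ ^ n = ζ ^ (n % p) := by
  conv_lhs => rw [← Nat.div_add_mod n p, pow_add, pow_mul, hζ.pow_eq_one, one_pow, one_mul]

/-- Powers of a primitive `p`-th root of unity are equal iff the exponents agree in `ZMod p`. -/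
theorem pow_eq_pow_iff_zmod {F : Type*} [Field F] {ζ : F} (hζ : IsPrimitiveRoot ζ p)
    (n m : ℕ) : ζ ^ n = ζ ^ m ↔ (n : ZMod p) = (m : ZMod p) := by
  rw [pow_mod_of_isPrimitiveRoot hζ n, pow_mod_of_isPrimitiveRoot hζ m,
    ZMod.natCast_eq_natCast_iff']
  constructor
  · intro h
    exact hζ.pow_inj (Nat.mod_lt _ hp.out.pos) (Nat.mod_lt _ hp.out.pos) h
  · intro h
    rw [h]

theorem pow_val_eq {F : Type*} [Field F] {ζ : F} (hζ : IsPrimitiveRoot ζ p)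
    (j : ZMod p) (n : ℕ) (h : (n : ZMod p) = j) : ζ ^ j.val = ζ ^ n := by
  rw [pow_eq_pow_iff_zmod hζ, ZMod.natCast_zmod_val, h]

/-- Every element of `G_ℚ` has a cyclotomic exponent. -/
theorem exists_isCycExp {ζ : Qb} (hζ : IsPrimitiveRoot ζ p) (σ : GQ) :
    ∃ a : ℕ, IsCycExp p σ a := by
  haveI : NeZero p := ⟨hp.out.ne_zero⟩
  have h1 : (σ ζ) ^ p = 1 := by rw [← map_pow, hζ.pow_eq_one, map_one]
  obtain ⟨a, -, ha⟩ := hζ.eq_pow_of_pow_eq_one h1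
  refine ⟨a, fun μ hμ => ?_⟩
  obtain ⟨i, -, hi⟩ := hζ.eq_pow_of_pow_eq_one hμ
  rw [← hi, map_pow, ← ha, ← pow_mul, ← pow_mul, mul_comm]

/-- The Kummer exponent of `σ` on a `p`-th root `θ` of a rational number. -/
theorem exists_kummer_exp {ζ : Qb} (hζ : IsPrimitiveRoot ζ p) (θ : Qb) (hθ : θ ≠ 0)
    (r : ℚ) (hr : θ ^ p = algebraMap ℚ Qb r) (σ : GQ) :
    ∃ j : ZMod p, σ θ = ζ ^ j.val * θ := by
  haveI : NeZero p := ⟨hp.out.ne_zero⟩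
  have h1 : (σ θ / θ) ^ p = 1 := by
    rw [div_pow, ← map_pow, hr, AlgEquiv.commutes, div_self]
    rw [← hr]
    exact pow_ne_zero _ hθ
  obtain ⟨i, -, hi⟩ := hζ.eq_pow_of_pow_eq_one h1
  refine ⟨(i : ZMod p), ?_⟩
  rw [pow_val_eq hζ (i : ZMod p) i rfl, hi, div_mul_cancel₀ _ hθ]

/-- A Kummer exponent function is a twisted cocycle on all of `G_ℚ`. -/
theorem kummer_exp_cocycle {ζ : Qb} (hζ : IsPrimitiveRoot ζ p) (θ : Qb) (hθ : θ ≠ 0)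
    (κ : GQ → ZMod p) (hκ : ∀ σ, σ θ = ζ ^ (κ σ).val * θ) (σ τ : GQ) (a : ℕ)
    (ha : IsCycExp p σ a) : κ (σ * τ) = κ σ + (a : ZMod p) * κ τ := by
  haveI : NeZero p := ⟨hp.out.ne_zero⟩
  have h1 : (σ * τ) θ = σ (τ θ) := rfl
  rw [hκ (σ * τ), hκ τ, map_mul, map_pow, ha ζ hζ.pow_eq_one, hκ σ, ← mul_assoc, ← pow_mul,
    ← pow_add] at h1
  have h2 := mul_right_cancel₀ hθ h1
  rw [pow_eq_pow_iff_zmod hζ] at h2
  push_cast at h2
  rw [ZMod.natCast_zmod_val, ZMod.natCast_zmod_val, ZMod.natCast_zmod_val] at h2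
  rw [h2]
  ring

/-- A Kummer exponent function has finite level. -/
theorem kummer_exp_level {ζ : Qb} (hζ : IsPrimitiveRoot ζ p) (θ : Qb) (hθ : θ ≠ 0)
    (κ : GQ → ZMod p) (hκ : ∀ σ, σ θ = ζ ^ (κ σ).val * θ) :
    ∃ L : IntermediateField ℚ Qb, FiniteDimensional ℚ L ∧
      ∀ σ τ : GQ, (∀ x ∈ L, τ x = x) → κ (σ * τ) = κ σ := by
  haveI : NeZero p := ⟨hp.out.ne_zero⟩
  haveI : Algebra.IsAlgebraic ℚ Qb := AlgebraicClosure.isAlgebraic ℚ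
  refine ⟨IntermediateField.adjoin ℚ {θ},
    IntermediateField.adjoin.finiteDimensional (Algebra.IsIntegral.isIntegral θ), ?_⟩
  intro σ τ hτ
  have h0 : τ θ = θ := hτ θ (IntermediateField.subset_adjoin ℚ _ (Set.mem_singleton θ))
  have h1 : (σ * τ) θ = σ θ := by
    show σ (τ θ) = σ θ
    rw [h0]
  rw [hκ (σ * τ), hκ σ] at h1
  have h2 := mul_right_cancel₀ hθ h1
  rw [pow_eq_pow_iff_zmod hζ, ZMod.natCast_zmod_val, ZMod.natCast_zmod_val] at h2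
  exact h2

end Roots

section Core

variable (p : ℕ) [hp : Fact p.Prime]

/-- **Kummer count, core form.**  Abstract local datum `(ι, loc)` with image `D`. -/
theorem kummer_core (hp2 : p ≠ 2) (D : Subgroup GQ)
    (ι : Qb →+* PadicAlgCl p) (loc : (PadicAlgCl p ≃ₐ[ℚ_[p]] PadicAlgCl p) →* GQ)
    (compat : ∀ τ x, ι (loc τ x) = τ (ι x)) (hrange : loc.range = D)
    (hlevel : ∀ L : IntermediateField ℚ Qb, FiniteDimensional ℚ L →
      ∃ E : IntermediateField ℚ_[p] (PadicAlgCl p), FiniteDimensional ℚ_[p] E ∧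
        ∀ τ : PadicAlgCl p ≃ₐ[ℚ_[p]] PadicAlgCl p, (∀ y ∈ E, τ y = y) →
          ∀ x ∈ L, loc τ x = x)
    (ζ π β : Qb) (hζ : IsPrimitiveRoot ζ p) (hπ : π ^ p = (p : Qb)) (hβ : β ^ p = 1 + (p : Qb))
    (κ₁ κ₂ : GQ → ZMod p) (hκ₁ : ∀ σ, σ π = ζ ^ (κ₁ σ).val * π)
    (hκ₂ : ∀ σ, σ β = ζ ^ (κ₂ σ).val * β)
    (c : GQ → ZMod p)
    (hcoc : ∀ σ ∈ D, ∀ τ ∈ D, ∀ a, IsCycExp p σ a → c (σ * τ) = c σ + (a : ZMod p) * c τ)
    (hlev : ∃ L : IntermediateField ℚ Qb, FiniteDimensional ℚ L ∧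
      ∀ σ ∈ D, ∀ τ ∈ D, (∀ x ∈ L, τ x = x) → c (σ * τ) = c σ) :
    ∃ x y m : ZMod p, ∀ σ ∈ D, ∀ a, IsCycExp p σ a →
      c σ = x * κ₁ σ + y * κ₂ σ + ((a : ZMod p) - 1) * m := by
  haveI : NeZero p := ⟨hp.out.ne_zero⟩
  have hιinj : Function.Injective ι := ι.injective
  have hmemD : ∀ τ, loc τ ∈ D := fun τ => hrange ▸ ⟨τ, rfl⟩
  have hζ0 : ζ ≠ 0 := hζ.ne_zero hp.out.ne_zero
  have hp0 : (p : Qb) ≠ 0 := by exact_mod_cast hp.out.ne_zero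
  have hπ0 : π ≠ 0 := by
    intro h
    rw [h, zero_pow hp.out.ne_zero] at hπ
    exact hp0 hπ.symm
  have h1p : (1 : Qb) + (p : Qb) ≠ 0 := by
    have : ((1 + p : ℕ) : Qb) ≠ 0 := by exact_mod_cast (Nat.succ_ne_zero p ∘ (by omega))
    simpa using this
  have hβ0 : β ≠ 0 := by
    intro h
    rw [h, zero_pow hp.out.ne_zero] at hβ
    exact h1p hβ.symm
  -- the multiplicative cocycle on the local Galois group
  set F : (PadicAlgCl p ≃ₐ[ℚ_[p]] PadicAlgCl p) → PadicAlgCl p :=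
    fun τ => ι (ζ ^ (c (loc τ)).val) with hF
  have hF0 : ∀ τ, F τ ≠ 0 := fun τ => by
    rw [hF]
    exact (map_ne_zero ι).mpr (pow_ne_zero _ hζ0)
  have hFp : ∀ τ, F τ ^ p = 1 := fun τ => by
    rw [hF]
    simp only
    rw [← map_pow, ← pow_mul, mul_comm, pow_mul, hζ.pow_eq_one, one_pow, map_one]
  have hFcoc : ∀ τ₁ τ₂, F (τ₁ * τ₂) = F τ₁ * τ₁ (F τ₂) := by
    intro τ₁ τ₂
    obtain ⟨a, ha⟩ := exists_isCycExp hζ (loc τ₁)
    have h1 := hcoc (loc τ₁) (hmemD τ₁) (loc τ₂) (hmemD τ₂) a ha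
    rw [hF]
    simp only
    rw [← compat, ← map_mul, map_mul loc, h1]
    congr 1
    have h2 : loc τ₁ (ζ ^ (c (loc τ₂)).val) = (ζ ^ (c (loc τ₂)).val) ^ a := by
      apply ha
      rw [← pow_mul, mul_comm, pow_mul, hζ.pow_eq_one, one_pow]
    rw [h2, ← pow_mul, ← pow_add]
    apply pow_val_eq hζ
    push_cast
    rw [ZMod.natCast_zmod_val, ZMod.natCast_zmod_val, mul_comm]
  obtain ⟨L, hLfin, hL⟩ := hlev
  obtain ⟨E, hEfin, hE⟩ := hlevel L hLfin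
  have hFlev : ∀ τ₁ τ₂ : PadicAlgCl p ≃ₐ[ℚ_[p]] PadicAlgCl p, (∀ y ∈ E, τ₂ y = y) →
      F (τ₁ * τ₂) = F τ₁ := by
    intro τ₁ τ₂ h
    rw [hF]
    simp only
    rw [map_mul loc, hL (loc τ₁) (hmemD τ₁) (loc τ₂) (hmemD τ₂) (hE τ₂ h)]
  obtain ⟨α, hα0, hα⟩ := hilbert90_of_level F hF0 hFcoc E hFlev
  -- `A = α⁻¹` satisfies `τ A = F τ * A`
  set A : PadicAlgCl p := α⁻¹ with hA
  have hA0 : A ≠ 0 := inv_ne_zero hα0
  have hAτ : ∀ τ : PadicAlgCl p ≃ₐ[ℚ_[p]] PadicAlgCl p, τ A = F τ * A := by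
    intro τ
    have h1 : τ α ≠ 0 := (map_ne_zero τ).mpr hα0
    rw [hA, map_inv₀]
    field_simp
    rw [mul_comm]
    exact (hα τ).symm
  -- `A ^ p ∈ ℚ_p`
  have hfix : ∀ τ : PadicAlgCl p ≃ₐ[ℚ_[p]] PadicAlgCl p, τ (A ^ p) = A ^ p := by
    intro τ
    rw [map_pow, hAτ, mul_pow, hFp, one_mul]
  obtain ⟨x, hx⟩ : ∃ x : ℚ_[p], algebraMap ℚ_[p] (PadicAlgCl p) x = A ^ p := by
    have := (InfiniteGalois.mem_bot_iff_fixed (k := ℚ_[p]) (K := PadicAlgCl p) (A ^ p)).2 hfix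
    exact IntermediateField.mem_bot.1 this
  have hx0 : x ≠ 0 := by
    intro h
    rw [h, map_zero] at hx
    exact pow_ne_zero _ hA0 hx.symm
  obtain ⟨i, j, w, hw0, hxw⟩ := padic_eq_pow_mul_nat p hp2 x hx0
  set W : PadicAlgCl p := algebraMap ℚ_[p] (PadicAlgCl p) w with hW
  have hW0 : W ≠ 0 := (map_ne_zero _).mpr hw0
  have hWτ : ∀ τ : PadicAlgCl p ≃ₐ[ℚ_[p]] PadicAlgCl p, τ W = W := fun τ => τ.commutes w
  -- the `p`-th root of unity `γ`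
  set γ : PadicAlgCl p := A / (ι π ^ i * ι β ^ j * W) with hγ
  have hden0 : ι π ^ i * ι β ^ j * W ≠ 0 :=
    mul_ne_zero (mul_ne_zero (pow_ne_zero _ ((map_ne_zero ι).mpr hπ0))
      (pow_ne_zero _ ((map_ne_zero ι).mpr hβ0))) hW0
  have hιπ : ι π ^ p = (p : PadicAlgCl p) := by rw [← map_pow, hπ, map_natCast]
  have hιβ : ι β ^ p = 1 + (p : PadicAlgCl p) := by
    rw [← map_pow, hβ, map_add, map_one, map_natCast]
  have hAp : A ^ p = (p : PadicAlgCl p) ^ i * (1 + (p : PadicAlgCl p)) ^ j * W ^ p := by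
    rw [← hx, hxw, hW]
    simp only [map_mul, map_pow, map_add, map_one, map_natCast]
  have hγp : γ ^ p = 1 := by
    have h1 : (ι π ^ i * ι β ^ j * W) ^ p =
        (p : PadicAlgCl p) ^ i * (1 + (p : PadicAlgCl p)) ^ j * W ^ p := by
      rw [mul_pow, mul_pow, ← pow_mul, ← pow_mul, mul_comm i p, mul_comm j p, pow_mul, pow_mul,
        hιπ, hιβ]
    rw [hγ, div_pow, h1, hAp, div_self]
    rw [← h1]
    exact pow_ne_zero _ hden0
  have hιζ : IsPrimitiveRoot (ι ζ) p := hζ.map_of_injective hιinj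
  obtain ⟨m, -, hm⟩ := hιζ.eq_pow_of_pow_eq_one hγp
  -- `A = ι ξ * W`
  set ξ : Qb := ζ ^ m * π ^ i * β ^ j with hξ
  have hξ0 : ξ ≠ 0 := mul_ne_zero (mul_ne_zero (pow_ne_zero _ hζ0) (pow_ne_zero _ hπ0))
    (pow_ne_zero _ hβ0)
  have hAξ : A = ι ξ * W := by
    have h1 : A = γ * (ι π ^ i * ι β ^ j * W) := by
      rw [hγ, div_mul_cancel₀ _ hden0]
    rw [h1, ← hm, hξ]
    simp only [map_mul, map_pow]
    ring
  have hkey : ∀ τ : PadicAlgCl p ≃ₐ[ℚ_[p]] PadicAlgCl p,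
      loc τ ξ = ζ ^ (c (loc τ)).val * ξ := by
    intro τ
    apply hιinj
    have h1 := hAτ τ
    rw [hAξ, map_mul, hWτ, ← compat, ← mul_assoc] at h1
    have h2 := mul_right_cancel₀ hW0 h1
    rw [h2, hF]
    simp only [map_mul]
  refine ⟨(i : ZMod p), (j : ZMod p), (m : ZMod p), ?_⟩
  intro σ hσ a ha
  obtain ⟨τ, rfl⟩ : ∃ τ, loc τ = σ := by
    rw [← hrange] at hσ
    exact hσ
  have h1 := hkey τ
  have hζa : loc τ ζ = ζ ^ a := ha ζ hζ.pow_eq_one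
  rw [hξ, map_mul, map_mul, map_pow, map_pow, map_pow, hζa, hκ₁, hκ₂, mul_pow, mul_pow] at h1
  have h2 : ζ ^ (a * m + (κ₁ (loc τ)).val * i + (κ₂ (loc τ)).val * j) * (π ^ i * β ^ j) =
      ζ ^ ((c (loc τ)).val + m) * (π ^ i * β ^ j) := by
    rw [pow_add, pow_add, pow_add, pow_mul, pow_mul, pow_mul]
    rw [← mul_assoc] at h1
    linear_combination h1
  have h3 := mul_right_cancel₀ (mul_ne_zero (pow_ne_zero _ hπ0) (pow_ne_zero _ hβ0)) h2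
  rw [pow_eq_pow_iff_zmod hζ] at h3
  push_cast at h3
  rw [ZMod.natCast_zmod_val, ZMod.natCast_zmod_val, ZMod.natCast_zmod_val] at h3
  linear_combination -h3

end Core

end Fermat.Agent.S56.H734
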