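import Mathlib
import Fermat.Agent.S56.H734.KummerCore
import Fermat.Agent.S55.Bridge.DecompLift
import Fermat.Agent.Lib.Cheb.H476.FrobConj

/-!
# S56 / H734 : the Kummer count at `p` — `dim H¹(D_P, k(1)) ≤ 2`

Sub-leaf KUMMER-P of LOC-SO (and input of FLAT-O).  `p` an odd prime, `P` a valuation subring of
`ℚ̄` over `p`, `D_P` its decomposition group, `k` a field of characteristic `p`.

* `kummer_zmod`  : there are `κ₁ κ₂ : G_ℚ → 𝔽_p` (Kummer cocycles of `p` and `1 + p`) such that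
  every `c : G_ℚ → 𝔽_p` with `c (σ τ) = c σ + a · c τ` on `D_P` (`a` a cyclotomic exponent of `σ`)
  of finite level is `c σ = x κ₁ σ + y κ₂ σ + (a − 1) m` on `D_P`.
* `kummerP`      : the same with coefficients in `k`; `κ₁, κ₂` are themselves twisted cocycles
  of finite level on all of `G_ℚ`.
* `kummerP_submodule` : a `k`-space `T` of functions with `dim T ≤ 2` such that every such cocycle
  is congruent on `D_P` to an element of `T` modulo a coboundary.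
-/

set_option autoImplicit false
set_option linter.style.haveILetI false

namespace Fermat.Agent.S56.H734

open Fermat.Agent.S56 Fermat.Agent.S55.Bridge
open scoped Pointwise

variable (p : ℕ) [hp : Fact p.Prime]

/-- The twisted cocycle condition on a subgroup `D`, with values in a ring `R`. -/
def IsCycCocycleOn (R : Type*) [Ring R] (D : Subgroup GQ) (c : GQ → R) : Prop :=
  ∀ σ ∈ D, ∀ τ ∈ D, ∀ a : ℕ, IsCycExp p σ a → c (σ * τ) = c σ + (a : R) * c τ

/-- Finite level on a subgroup `D`. -/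
def HasLevelOn {X : Type*} (D : Subgroup GQ) (c : GQ → X) : Prop :=
  ∃ L : IntermediateField ℚ Qb, FiniteDimensional ℚ L ∧
    ∀ σ ∈ D, ∀ τ ∈ D, (∀ x ∈ L, τ x = x) → c (σ * τ) = c σ

theorem padicPlace_liesOver : (padicPlace p).LiesOverPrime p := by
  show ((p : ℕ) : Qb) ∈ (padicPlace p).nonunits
  rw [ValuationSubring.mem_nonunits_iff_exists_mem_maximalIdeal]
  have hnorm : ‖padicEmbedding p ((p : ℕ) : Qb)‖ = (p : ℝ)⁻¹ :=
    norm_padicEmbedding_natCast_self p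
  have hp1 : (1 : ℝ) < p := by exact_mod_cast hp.out.one_lt
  have hmem : ((p : ℕ) : Qb) ∈ padicPlace p := by
    rw [mem_padicPlace_iff_norm, hnorm]
    exact inv_le_one_of_one_le₀ hp1.le
  refine ⟨hmem, ?_⟩
  rw [IsLocalRing.mem_maximalIdeal, mem_nonunits_iff]
  rintro ⟨u, hu⟩
  have h1 : ((u⁻¹ : (padicPlace p)ˣ) : padicPlace p) * u = 1 := by simp
  have h2 : (((u⁻¹ : (padicPlace p)ˣ) : padicPlace p) : Qb) * ((p : ℕ) : Qb) = 1 := by
    have := congrArg (Subtype.val) h1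
    rw [hu] at this
    simpa using this
  have h3 := ((u⁻¹ : (padicPlace p)ˣ) : padicPlace p).2
  rw [mem_padicPlace_iff_norm] at h3
  have h4 := congrArg (fun z => ‖padicEmbedding p z‖) h2
  simp only [map_mul, norm_mul, map_one, norm_one] at h4
  rw [hnorm] at h4
  have hinv : (p : ℝ)⁻¹ < 1 := inv_lt_one_of_one_lt₀ hp1
  have hpos : (0 : ℝ) < (p : ℝ)⁻¹ := inv_pos.mpr (by linarith)
  nlinarith [norm_nonneg (padicEmbedding p
    ((((u⁻¹ : (padicPlace p)ˣ) : padicPlace p) : Qb)))]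

/-- **Kummer count, `𝔽_p`-coefficients.** -/
theorem kummer_zmod (hp2 : p ≠ 2) (P : ValuationSubring Qb) (hP : P.LiesOverPrime p) :
    ∃ κ₁ κ₂ : GQ → ZMod p,
      (IsCycCocycleOn p (ZMod p) ⊤ κ₁ ∧ HasLevelOn ⊤ κ₁) ∧
      (IsCycCocycleOn p (ZMod p) ⊤ κ₂ ∧ HasLevelOn ⊤ κ₂) ∧
      ∀ c : GQ → ZMod p,
      IsCycCocycleOn p (ZMod p) (P.decompositionSubgroup ℚ) c →
      HasLevelOn (P.decompositionSubgroup ℚ) c →
      ∃ x y m : ZMod p, ∀ σ ∈ P.decompositionSubgroup ℚ, ∀ a, IsCycExp p σ a →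
        c σ = x * κ₁ σ + y * κ₂ σ + ((a : ZMod p) - 1) * m := by
  haveI : NeZero p := ⟨hp.out.ne_zero⟩
  obtain ⟨g, hg⟩ := Fermat.Agent.Lib.Cheb.H476.exists_smul_eq hp.out (padicPlace_liesOver p) hP
  -- roots
  obtain ⟨ζ, hζ⟩ := HasEnoughRootsOfUnity.exists_primitiveRoot Qb p
  obtain ⟨π, hπ⟩ := IsAlgClosed.exists_pow_nat_eq ((p : ℕ) : Qb) hp.out.pos
  obtain ⟨β, hβ⟩ := IsAlgClosed.exists_pow_nat_eq (1 + ((p : ℕ) : Qb)) hp.out.pos
  have hp0 : ((p : ℕ) : Qb) ≠ 0 := by exact_mod_cast hp.out.ne_zero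
  have hπ0 : π ≠ 0 := by
    intro h
    rw [h, zero_pow hp.out.ne_zero] at hπ
    exact hp0 hπ.symm
  have h1p : (1 : Qb) + ((p : ℕ) : Qb) ≠ 0 := by
    have : ((1 + p : ℕ) : Qb) ≠ 0 := by exact_mod_cast (Nat.succ_ne_zero p ∘ (by omega))
    simpa using this
  have hβ0 : β ≠ 0 := by
    intro h
    rw [h, zero_pow hp.out.ne_zero] at hβ
    exact h1p hβ.symm
  have hπr : π ^ p = algebraMap ℚ Qb (p : ℚ) := by rw [hπ]; simp
  have hβr : β ^ p = algebraMap ℚ Qb (1 + (p : ℚ)) := by rw [hβ]; simp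
  choose κ₁ hκ₁ using exists_kummer_exp hζ π hπ0 (p : ℚ) hπr
  choose κ₂ hκ₂ using exists_kummer_exp hζ β hβ0 (1 + (p : ℚ)) hβr
  refine ⟨κ₁, κ₂, ⟨fun σ _ τ _ a ha => kummer_exp_cocycle hζ π hπ0 κ₁ hκ₁ σ τ a ha, ?_⟩,
    ⟨fun σ _ τ _ a ha => kummer_exp_cocycle hζ β hβ0 κ₂ hκ₂ σ τ a ha, ?_⟩, fun c hcoc hlev => ?_⟩
  · obtain ⟨L, hL, h⟩ := kummer_exp_level hζ π hπ0 κ₁ hκ₁
    exact ⟨L, hL, fun σ _ τ _ hτ => h σ τ hτ⟩
  · obtain ⟨L, hL, h⟩ := kummer_exp_level hζ β hβ0 κ₂ hκ₂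
    exact ⟨L, hL, fun σ _ τ _ hτ => h σ τ hτ⟩
  -- the local datum attached to `g`
  let ι' : Qb →+* PadicAlgCl p :=
    ((padicEmbedding p : Qb →ₐ[ℚ] PadicAlgCl p) : Qb →+* PadicAlgCl p).comp
      (((g⁻¹ : GQ) : Qb →ₐ[ℚ] Qb) : Qb →+* Qb)
  let loc' : (PadicAlgCl p ≃ₐ[ℚ_[p]] PadicAlgCl p) →* GQ :=
    (MulAut.conj g).toMonoidHom.comp (localGaloisToGlobal p)
  have hloc' : ∀ τ x, loc' τ x = g (localGaloisToGlobal p τ (g⁻¹ x)) := fun τ x => rfl
  have hι' : ∀ x, ι' x = padicEmbedding p (g⁻¹ x) := fun x => rfl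
  have compat : ∀ τ x, ι' (loc' τ x) = τ (ι' x) := by
    intro τ x
    rw [hι', hloc', Fermat.Agent.Lib.Cheb.H476.inv_apply_apply,
      padicEmbedding_localGaloisToGlobal, hι']
  have hrange : loc'.range = P.decompositionSubgroup ℚ := by
    rw [MonoidHom.range_comp, range_localGaloisToGlobal, ← hg]
    exact (MulAction.stabilizer_smul_eq_stabilizer_map_conj g (padicPlace p)).symm
  have hlevel : ∀ L : IntermediateField ℚ Qb, FiniteDimensional ℚ L →
      ∃ E : IntermediateField ℚ_[p] (PadicAlgCl p), FiniteDimensional ℚ_[p] E ∧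
        ∀ τ : PadicAlgCl p ≃ₐ[ℚ_[p]] PadicAlgCl p, (∀ y ∈ E, τ y = y) →
          ∀ x ∈ L, loc' τ x = x := by
    intro L hL
    haveI := hL
    obtain ⟨E, hE, hEL⟩ := exists_local_level_of_global p
      (L.map ((g⁻¹ : GQ) : Qb →ₐ[ℚ] Qb))
    refine ⟨E, hE, fun τ hτ x hx => ?_⟩
    have h1 := hEL τ ((IntermediateField.mem_fixingSubgroup_iff _ _).2 hτ)
    rw [IntermediateField.mem_fixingSubgroup_iff] at h1
    have h2 := h1 (g⁻¹ x) ((IntermediateField.mem_map _).2 ⟨x, hx, rfl⟩)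
    rw [hloc', h2, Fermat.Agent.Lib.Cheb.H476.apply_inv_apply]
  exact kummer_core p hp2 (P.decompositionSubgroup ℚ) ι' loc' compat hrange hlevel ζ π β hζ
    (by rw [hπ]) (by rw [hβ]) κ₁ κ₂ hκ₁ hκ₂ c hcoc hlev

/-- A function of finite level on `D` takes finitely many values on `D`. -/
theorem finite_values_of_hasLevelOn {X : Type*} (D : Subgroup GQ) (c : GQ → X)
    (hlev : HasLevelOn D c) : {v : X | ∃ σ ∈ D, c σ = v}.Finite := by
  classical
  obtain ⟨L, hL, hc⟩ := hlev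
  haveI := hL
  rcases isEmpty_or_nonempty X with hX | hX
  · exact Set.toFinite _
  obtain ⟨x₀⟩ := hX
  let r : GQ → (L →ₐ[ℚ] Qb) := fun σ => (σ : Qb →ₐ[ℚ] Qb).comp L.val
  have hr : ∀ σ ∈ D, ∀ σ' ∈ D, r σ = r σ' → c σ = c σ' := by
    intro σ hσ σ' hσ' h
    have h0 : σ' = σ * (σ⁻¹ * σ') := by group
    rw [h0]
    symm
    apply hc σ hσ (σ⁻¹ * σ') (D.mul_mem (D.inv_mem hσ) hσ')
    intro x hx
    have h1 : σ x = σ' x := DFunLike.congr_fun h ⟨x, hx⟩
    show σ⁻¹ (σ' x) = x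
    rw [← h1]
    exact Fermat.Agent.Lib.Cheb.H476.inv_apply_apply σ x
  let c' : (L →ₐ[ℚ] Qb) → X := fun φ =>
    if h : ∃ σ ∈ D, r σ = φ then c h.choose else x₀
  refine (Set.finite_range c').subset ?_
  rintro v ⟨σ, hσ, rfl⟩
  refine ⟨r σ, ?_⟩
  have h : ∃ σ' ∈ D, r σ' = r σ := ⟨σ, hσ, rfl⟩
  show (if h : ∃ σ' ∈ D, r σ' = r σ then c h.choose else x₀) = c σ
  rw [dif_pos h]
  exact hr _ h.choose_spec.1 _ hσ h.choose_spec.2

/-- **Kummer count at `p`** (sub-leaf KUMMER-P): coefficients in a field `k` of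
characteristic `p`. -/
theorem kummerP (hp2 : p ≠ 2) (k : Type*) [Field k] [CharP k p]
    (P : ValuationSubring Qb) (hP : P.LiesOverPrime p) :
    ∃ κ₁ κ₂ : GQ → k,
      (IsCycCocycleOn p k ⊤ κ₁ ∧ HasLevelOn ⊤ κ₁) ∧
      (IsCycCocycleOn p k ⊤ κ₂ ∧ HasLevelOn ⊤ κ₂) ∧
      ∀ c : GQ → k,
      IsCycCocycleOn p k (P.decompositionSubgroup ℚ) c →
      HasLevelOn (P.decompositionSubgroup ℚ) c →
      ∃ x y m : k, ∀ σ ∈ P.decompositionSubgroup ℚ, ∀ a, IsCycExp p σ a →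
        c σ = x * κ₁ σ + y * κ₂ σ + ((a : k) - 1) * m := by
  classical
  letI : Algebra (ZMod p) k := ZMod.algebra k p
  obtain ⟨κ₁, κ₂, hκ₁, hκ₂, hκ⟩ := kummer_zmod p hp2 P hP
  have htr : ∀ κ : GQ → ZMod p, (IsCycCocycleOn p (ZMod p) ⊤ κ ∧ HasLevelOn ⊤ κ) →
      (IsCycCocycleOn p k ⊤ (fun σ => algebraMap (ZMod p) k (κ σ)) ∧
        HasLevelOn ⊤ (fun σ => algebraMap (ZMod p) k (κ σ))) := by
    rintro κ ⟨h1, L, hL, h2⟩
    refine ⟨fun σ hσ τ hτ a ha => ?_, L, hL, fun σ hσ τ hτ h => ?_⟩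
    · show algebraMap (ZMod p) k (κ (σ * τ)) = _
      rw [h1 σ hσ τ hτ a ha, map_add, map_mul, map_natCast]
    · show algebraMap (ZMod p) k (κ (σ * τ)) = algebraMap (ZMod p) k (κ σ)
      rw [h2 σ hσ τ hτ h]
  refine ⟨fun σ => algebraMap (ZMod p) k (κ₁ σ), fun σ => algebraMap (ZMod p) k (κ₂ σ),
    htr κ₁ hκ₁, htr κ₂ hκ₂, fun c hcoc hlev => ?_⟩
  set D := P.decompositionSubgroup ℚ with hD
  -- the finite-dimensional `𝔽_p`-space spanned by the values
  have hfin := finite_values_of_hasLevelOn D c hlev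
  set W : Submodule (ZMod p) k := Submodule.span (ZMod p) {v : k | ∃ σ ∈ D, c σ = v} with hW
  haveI : FiniteDimensional (ZMod p) W := FiniteDimensional.span_of_finite (ZMod p) hfin
  have hcW : ∀ σ ∈ D, c σ ∈ W := fun σ hσ => Submodule.subset_span ⟨σ, hσ, rfl⟩
  let b := Module.finBasis (ZMod p) W
  -- extended coordinate functionals
  have hext : ∀ i, ∃ l : k →ₗ[ZMod p] ZMod p, l ∘ₗ W.subtype = b.coord i :=
    fun i => LinearMap.exists_extend (b.coord i)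
  choose l hl using hext
  have hl' : ∀ i (w : W), l i (w : k) = b.repr w i := by
    intro i w
    have := congrArg (fun f => f w) (hl i)
    simpa using this
  -- the component cocycles
  have hcomp : ∀ i, ∃ x y m : ZMod p, ∀ σ ∈ D, ∀ a, IsCycExp p σ a →
      l i (c σ) = x * κ₁ σ + y * κ₂ σ + ((a : ZMod p) - 1) * m := by
    intro i
    apply hκ (fun σ => l i (c σ))
    · intro σ hσ τ hτ a ha
      show l i (c (σ * τ)) = l i (c σ) + (a : ZMod p) * l i (c τ)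
      rw [hcoc σ hσ τ hτ a ha, map_add]
      congr 1
      have : (a : k) * c τ = (a : ZMod p) • c τ := by
        rw [Algebra.smul_def, map_natCast]
      rw [this, map_smul, smul_eq_mul]
    · obtain ⟨L, hL, hc⟩ := hlev
      exact ⟨L, hL, fun σ hσ τ hτ h => by
        show l i (c (σ * τ)) = l i (c σ)
        rw [hc σ hσ τ hτ h]⟩
  choose x y m hxym using hcomp
  refine ⟨∑ i, x i • (b i : k), ∑ i, y i • (b i : k), ∑ i, m i • (b i : k), ?_⟩
  intro σ hσ a ha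
  have h1 : c σ = ∑ i, (l i (c σ)) • (b i : k) := by
    have h2 := b.sum_repr ⟨c σ, hcW σ hσ⟩
    have h3 : (∑ i, (b.repr ⟨c σ, hcW σ hσ⟩ i) • (b i : k)) = c σ := by
      have h4 := congrArg (fun w : W => (w : k)) h2
      simp only [Submodule.coe_sum, Submodule.coe_smul] at h4
      exact h4
    conv_lhs => rw [← h3]
    refine Finset.sum_congr rfl fun i _ => ?_
    exact congrArg (· • (b i : k)) (hl' i ⟨c σ, hcW σ hσ⟩).symm
  rw [h1]
  simp only [hxym _ σ hσ a ha, Finset.sum_mul, Finset.mul_sum, ← Finset.sum_add_distrib]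
  refine Finset.sum_congr rfl fun i _ => ?_
  simp only [Algebra.smul_def, map_add, map_mul, map_sub, map_one, map_natCast]
  ring

/-- The twisted coboundary condition on `D`: `c σ = t σ + (a − 1) m`. -/
def IsCohomologousOn (R : Type*) [Ring R] (D : Subgroup GQ) (c t : GQ → R) : Prop :=
  ∃ m : R, ∀ σ ∈ D, ∀ a : ℕ, IsCycExp p σ a → c σ = t σ + ((a : R) - 1) * m

/-- **Kummer count at `p`, submodule form**: `dim_k H¹(D_P, k(1)) ≤ 2`. -/
theorem kummerP_submodule (hp2 : p ≠ 2) (k : Type*) [Field k] [CharP k p]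
    (P : ValuationSubring Qb) (hP : P.LiesOverPrime p) :
    ∃ T : Submodule k (GQ → k), Module.Finite k T ∧ Module.finrank k T ≤ 2 ∧
      ∀ c : GQ → k, IsCycCocycleOn p k (P.decompositionSubgroup ℚ) c →
        HasLevelOn (P.decompositionSubgroup ℚ) c →
        ∃ t ∈ T, IsCohomologousOn p k (P.decompositionSubgroup ℚ) c t := by
  classical
  obtain ⟨κ₁, κ₂, -, -, hκ⟩ := kummerP p hp2 k P hP
  refine ⟨Submodule.span k ((({κ₁, κ₂} : Finset (GQ → k)) : Set (GQ → k))), ?_, ?_, ?_⟩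
  · exact FiniteDimensional.span_finset k _
  · refine (finrank_span_finset_le_card (R := k) ({κ₁, κ₂} : Finset (GQ → k))).trans ?_
    exact Finset.card_le_two
  · intro c hcoc hlev
    obtain ⟨x, y, m, h⟩ := hκ c hcoc hlev
    refine ⟨x • κ₁ + y • κ₂, ?_, m, fun σ hσ a ha => ?_⟩
    · apply Submodule.add_mem
      · exact Submodule.smul_mem _ _ (Submodule.subset_span (by simp))
      · exact Submodule.smul_mem _ _ (Submodule.subset_span (by simp))
    · rw [h σ hσ a ha]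
      simp

end Fermat.Agent.S56.H734
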