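import Mathlib

/-!
# S56 / FLAT-O, leaf KUM (helper734), part 1: fixed points of a `p`-semilinear map

`κ` a field, `V` a finite-dimensional `κ`-vector space, `T : V →+ V` additive with
`T (a • x) = a ^ p • T x`, `1 < p`.  Then `T` has at most `p ^ dim V` fixed points
(`card_fixed_le`).  (Lang's count; only the upper bound, no characteristic assumption.)
-/

set_option autoImplicit false
set_option linter.style.haveILetI false

namespace Fermat.Agent.S56.H734

open Polynomial

/-- The solutions of `a ^ p = a` in a field: at most `p` of them. -/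
theorem card_pow_eq_self_le {κ : Type*} [Field κ] {p : ℕ} (hp : 1 < p) :
    Finite {a : κ // a ^ p = a} ∧ Nat.card {a : κ // a ^ p = a} ≤ p := by
  classical
  have hne : (X ^ p - X : κ[X]) ≠ 0 := FiniteField.X_pow_card_sub_X_ne_zero κ hp
  have hdeg : (X ^ p - X : κ[X]).natDegree = p := FiniteField.X_pow_card_sub_X_natDegree_eq κ hp
  have hsub : {a : κ | a ^ p = a} ⊆ ((X ^ p - X : κ[X]).roots.toFinset : Set κ) := by
    intro a ha
    simp only [Finset.mem_coe, Multiset.mem_toFinset, mem_roots hne, IsRoot.def, eval_sub,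
      eval_pow, eval_X]
    rw [Set.mem_ofPred_eq] at ha
    rw [ha, sub_self]
  have hfin : {a : κ | a ^ p = a}.Finite := (Finset.finite_toSet _).subset hsub
  refine ⟨hfin.to_subtype, ?_⟩
  have h1 : Nat.card {a : κ // a ^ p = a} = {a : κ | a ^ p = a}.ncard := rfl
  rw [h1]
  calc {a : κ | a ^ p = a}.ncard
      ≤ ((X ^ p - X : κ[X]).roots.toFinset : Set κ).ncard :=
        Set.ncard_le_ncard hsub (Finset.finite_toSet _)
    _ = (X ^ p - X : κ[X]).roots.toFinset.card := Set.ncard_coe_finset _
    _ ≤ Multiset.card (X ^ p - X : κ[X]).roots := Multiset.toFinset_card_le _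
    _ ≤ (X ^ p - X : κ[X]).natDegree := card_roots' _
    _ = p := hdeg

/-- **Lang's count, upper bound.**  A `p`-semilinear additive endomorphism of a
finite-dimensional vector space has at most `p ^ dim` fixed points. -/
theorem card_fixed_le {κ V : Type*} [Field κ] [AddCommGroup V] [Module κ V]
    [Module.Finite κ V] {p : ℕ} (hp : 1 < p) (T : V →+ V)
    (hT : ∀ (a : κ) (x : V), T (a • x) = a ^ p • T x) :
    Finite {x : V // T x = x} ∧ Nat.card {x : V // T x = x} ≤ p ^ Module.finrank κ V := by
  classical
  obtain ⟨b, hbS, hspan, hli⟩ := exists_linearIndependent κ {x : V | T x = x}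
  haveI : Finite b := hli.finite
  haveI : Fintype b := Fintype.ofFinite b
  have hcard : Fintype.card b ≤ Module.finrank κ V := hli.fintype_card_le_finrank
  obtain ⟨hRfin, hRcard⟩ := card_pow_eq_self_le (κ := κ) hp
  haveI := hRfin
  -- coefficients of a fixed point
  have hrep : ∀ x : {x : V // T x = x}, ∃ l : b → {a : κ // a ^ p = a},
      ∑ i, (l i : κ) • (i : V) = (x : V) := by
    rintro ⟨x, hx⟩
    have hxs : x ∈ Submodule.span κ (Set.range (Subtype.val : b → V)) := by
      rw [Subtype.range_coe, hspan]
      exact Submodule.subset_span hx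
    obtain ⟨c, hc⟩ := (Submodule.mem_span_range_iff_exists_fun κ).mp hxs
    have hTx : T x = ∑ i, (c i) ^ p • (i : V) := by
      rw [← hc, map_sum]
      refine Finset.sum_congr rfl fun i _ => ?_
      rw [hT, (hbS i.2 : T (i : V) = (i : V))]
    have hzero : ∑ i, ((c i) ^ p - c i) • (i : V) = 0 := by
      simp only [sub_smul, Finset.sum_sub_distrib]
      rw [← hTx, hc, hx, sub_self]
    have hci := Fintype.linearIndependent_iff.mp hli _ hzero
    refine ⟨fun i => ⟨c i, sub_eq_zero.mp (hci i)⟩, hc⟩
  choose l hl using hrep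
  have hinj : Function.Injective l := by
    intro x y hxy
    apply Subtype.ext
    rw [← hl x, ← hl y, hxy]
  haveI : Finite {x : V // T x = x} := Finite.of_injective l hinj
  refine ⟨inferInstance, ?_⟩
  have hR1 : 0 < Nat.card {a : κ // a ^ p = a} :=
    Nat.card_pos_iff.mpr ⟨⟨⟨0, zero_pow (by omega)⟩⟩, hRfin⟩
  calc Nat.card {x : V // T x = x}
      ≤ Nat.card (b → {a : κ // a ^ p = a}) := Nat.card_le_card_of_injective l hinj
    _ = Nat.card {a : κ // a ^ p = a} ^ Fintype.card b := by
        rw [Nat.card_fun, Nat.card_eq_fintype_card (α := b)]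
    _ ≤ p ^ Fintype.card b := Nat.pow_le_pow_left hRcard _
    _ ≤ p ^ Module.finrank κ V := Nat.pow_le_pow_right (by omega) hcard

end Fermat.Agent.S56.H734
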