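import Fermat.Agent.S56.H66.VGArch
import Fermat.Agent.S56.H786.KummerH90
import Fermat.Agent.Lib.Cheb.H643.FrobAt
import Fermat.Agent.S56.H606.Gen
import Fermat.Agent.A2.H708.Tame
import Fermat.Agent.S56.H794.TameFrob

/-!
# S56 / FLAT-O, leaf KUM (helper734), part 2: the residue invariant of a unit Kummer class

`P | p` a valuation subring of `ℚ̄`, `I = I_P`, `ζ` a primitive `p`-th root of unity,
`H = {σ ∈ I : σ ζ = ζ}`.  For `χ : G_ℚ → ZMod p` we say `KRel P ζ χ y` (`y` in the residue field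
of `P`) if there are `a ∈ P` fixed by `I` and `r` with `r ^ p = 1 + p a`,
`σ r = ζ ^ χ(σ) r` for `σ ∈ H`, and `y = a mod 𝔪_P`.

* `KRel.zero`, `KRel.add`, `KRel.nsmul`, `KRel.sum`, `KRel.congr` : additivity;
* `KRel.unique` : `y` is determined by `χ|_H`                       (valuations in `ℚ̄^H`, `vg1`);
* `KRel.ker` : `KRel χ 0 → χ|_H = 0`, `p` odd                       (Krasner-type root lemma, `vg0`);
* `KRel.frob` : `KRel χ y → KRel (ω(φ) χ(φ⁻¹ · φ)) (y ^ p)` for a Frobenius `φ`;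
* `KRel.exists_of_unit` : existence for an `ω`-twisted cocycle on `I` of finite level with a unit
  Kummer generator on `H`                     (Hilbert 90 on `I`, `vg0`, `vg1`, Teichmüller).
-/

set_option autoImplicit false
set_option linter.style.haveILetI false

noncomputable section

namespace Fermat.Agent.S56.H734

open Fermat.Agent.S56 Fermat.Agent.S56.H786 IsLocalRing

/-! ## Residues of elements of `ℚ̄` -/

section res

variable (P : ValuationSubring Qb)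

/-- The residue class of `x ∈ P` (and `0` outside `P`). -/
def resQ (x : Qb) : ResidueField P :=
  haveI := Classical.propDecidable (x ∈ P)
  if h : x ∈ P then residue P ⟨x, h⟩ else 0

variable {P}

theorem resQ_of_mem {x : Qb} (h : x ∈ P) : resQ P x = residue P ⟨x, h⟩ := by
  unfold resQ
  exact dif_pos h

theorem resQ_add {x y : Qb} (hx : x ∈ P) (hy : y ∈ P) :
    resQ P (x + y) = resQ P x + resQ P y := by
  rw [resQ_of_mem hx, resQ_of_mem hy, resQ_of_mem (P.add_mem _ _ hx hy), ← map_add]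
  rfl

theorem resQ_mul {x y : Qb} (hx : x ∈ P) (hy : y ∈ P) :
    resQ P (x * y) = resQ P x * resQ P y := by
  rw [resQ_of_mem hx, resQ_of_mem hy, resQ_of_mem (P.mul_mem _ _ hx hy), ← map_mul]
  rfl

theorem resQ_one : resQ P 1 = 1 := by
  rw [resQ_of_mem P.one_mem]
  exact map_one (residue P)

theorem resQ_zero : resQ P 0 = 0 := by
  rw [resQ_of_mem P.zero_mem]
  exact map_zero (residue P)

theorem resQ_pow {x : Qb} (hx : x ∈ P) (n : ℕ) : resQ P (x ^ n) = resQ P x ^ n := by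
  induction n with
  | zero => rw [pow_zero, pow_zero, resQ_one]
  | succ n ih => rw [pow_succ, pow_succ, resQ_mul (pow_mem hx n) hx, ih]

theorem resQ_eq_zero_iff {x : Qb} (hx : x ∈ P) : resQ P x = 0 ↔ P.valuation x < 1 := by
  rw [resQ_of_mem hx, IsLocalRing.residue_eq_zero_iff, ValuationSubring.valuation_lt_one_iff]

theorem resQ_eq_iff {x y : Qb} (hx : x ∈ P) (hy : y ∈ P) :
    resQ P x = resQ P y ↔ P.valuation (x - y) < 1 := by
  rw [resQ_of_mem hx, resQ_of_mem hy, ← sub_eq_zero, ← map_sub,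
    IsLocalRing.residue_eq_zero_iff, ValuationSubring.valuation_lt_one_iff]
  rfl

theorem resQ_natCast_self {p : ℕ} (hP : P.LiesOverPrime p) : resQ P (p : Qb) = 0 := by
  have hp : (p : Qb) ∈ P := natCast_mem P p
  rw [resQ_eq_zero_iff hp]
  exact (P.mem_nonunits_iff).mp hP

theorem resQ_surjective (y : ResidueField P) : ∃ x ∈ P, resQ P x = y := by
  obtain ⟨x, rfl⟩ := residue_surjective y
  exact ⟨x, x.2, resQ_of_mem x.2⟩

end res

/-! ## The residue invariant -/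

section kum

variable {p : ℕ} (P : ValuationSubring Qb) (ζ : Qb)

/-- `r` is a Kummer generator of `χ` on `H = {σ ∈ I_P : σ ζ = ζ}`. -/
def IsKumGen (χ : GQ → ZMod p) (r : Qb) : Prop :=
  ∀ σ ∈ P.inertiaSubgroupIn ℚ, σ ζ = ζ → σ r = zp ζ (χ σ) * r

/-- The residue invariant: `1 + p a` (`a` an integer of the inertia field, `y = a mod 𝔪_P`)
has a `p`-th root which is a Kummer generator of `χ` on `H`. -/
def KRel (χ : GQ → ZMod p) (y : ResidueField P) : Prop :=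
  ∃ a r : Qb, a ∈ P ∧ (∀ σ ∈ P.inertiaSubgroupIn ℚ, σ a = a) ∧ r ^ p = 1 + (p : Qb) * a ∧
    IsKumGen P ζ χ r ∧ resQ P a = y

variable {P ζ}

theorem val_p_lt_one (hP : P.LiesOverPrime p) : P.valuation (p : Qb) < 1 :=
  (P.mem_nonunits_iff).mp hP

theorem val_le_one {a : Qb} (ha : a ∈ P) : P.valuation a ≤ 1 :=
  (P.valuation_le_one_iff a).mpr ha

theorem val_p_mul_lt_one (hP : P.LiesOverPrime p) {a : Qb} (ha : a ∈ P) :
    P.valuation ((p : Qb) * a) < 1 := by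
  rw [map_mul]
  calc P.valuation (p : Qb) * P.valuation a ≤ P.valuation (p : Qb) * 1 :=
        mul_le_mul_right (val_le_one ha) _
    _ < 1 := by rw [mul_one]; exact val_p_lt_one hP

theorem val_one_add (hP : P.LiesOverPrime p) {a : Qb} (ha : a ∈ P) :
    P.valuation (1 + (p : Qb) * a) = 1 :=
  Valuation.map_one_add_of_lt _ (val_p_mul_lt_one hP ha)

theorem val_eq_one_of_pow (hp0 : p ≠ 0) (hP : P.LiesOverPrime p) {a r : Qb} (ha : a ∈ P)
    (hr : r ^ p = 1 + (p : Qb) * a) : P.valuation r = 1 := by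
  have h := val_one_add hP ha
  rw [← hr, map_pow] at h
  exact (pow_eq_one_iff_left hp0).mp h

theorem mem_of_val_eq_one {r : Qb} (h : P.valuation r = 1) : r ∈ P :=
  (P.valuation_le_one_iff r).mp h.le

theorem ne_zero_of_val_eq_one {r : Qb} (h : P.valuation r = 1) : r ≠ 0 := by
  rintro rfl
  rw [map_zero] at h
  exact zero_ne_one h

theorem KRel.congr {χ χ' : GQ → ZMod p} {y : ResidueField P}
    (h : ∀ σ ∈ P.inertiaSubgroupIn ℚ, σ ζ = ζ → χ σ = χ' σ) (hk : KRel P ζ χ y) :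
    KRel P ζ χ' y := by
  obtain ⟨a, r, ha, hfa, hr, hgen, hy⟩ := hk
  exact ⟨a, r, ha, hfa, hr, fun σ hσ hσζ => by rw [← h σ hσ hσζ]; exact hgen σ hσ hσζ, hy⟩

theorem KRel.zero [NeZero p] : KRel P ζ (0 : GQ → ZMod p) 0 := by
  refine ⟨0, 1, P.zero_mem, fun σ _ => map_zero σ, by rw [one_pow, mul_zero, add_zero], ?_,
    resQ_zero⟩
  intro σ _ _
  rw [map_one, Pi.zero_apply, zp_zero, one_mul]

theorem KRel.add [NeZero p] (hζ1 : ζ ^ p = 1) (hP : P.LiesOverPrime p) {χ χ' : GQ → ZMod p}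
    {y y' : ResidueField P} (h : KRel P ζ χ y) (h' : KRel P ζ χ' y') :
    KRel P ζ (χ + χ') (y + y') := by
  obtain ⟨a, r, ha, hfa, hr, hgen, hy⟩ := h
  obtain ⟨a', r', ha', hfa', hr', hgen', hy'⟩ := h'
  have hpP : (p : Qb) ∈ P := natCast_mem P p
  refine ⟨a + a' + (p : Qb) * a * a', r * r',
    P.add_mem _ _ (P.add_mem _ _ ha ha') (P.mul_mem _ _ (P.mul_mem _ _ hpP ha) ha'), ?_, ?_, ?_, ?_⟩
  · intro σ hσ
    rw [map_add, map_add, map_mul, map_mul, map_natCast, hfa σ hσ, hfa' σ hσ]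
  · rw [mul_pow, hr, hr']
    ring
  · intro σ hσ hσζ
    rw [map_mul, hgen σ hσ hσζ, hgen' σ hσ hσζ, Pi.add_apply, zp_add hζ1]
    ring
  · rw [resQ_add (P.add_mem _ _ ha ha') (P.mul_mem _ _ (P.mul_mem _ _ hpP ha) ha'),
      resQ_add ha ha', resQ_mul (P.mul_mem _ _ hpP ha) ha', resQ_mul hpP ha,
      resQ_natCast_self hP, hy, hy', zero_mul, zero_mul, add_zero]

theorem KRel.nsmul [NeZero p] (hζ1 : ζ ^ p = 1) (hP : P.LiesOverPrime p) {χ : GQ → ZMod p}
    {y : ResidueField P} (h : KRel P ζ χ y) (n : ℕ) : KRel P ζ (n • χ) (n • y) := by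
  induction n with
  | zero =>
    rw [zero_smul, zero_smul]
    exact KRel.zero
  | succ n ih =>
    rw [succ_nsmul, succ_nsmul]
    exact KRel.add hζ1 hP ih h

theorem KRel.sum [NeZero p] (hζ1 : ζ ^ p = 1) (hP : P.LiesOverPrime p) {ι : Type*}
    (s : Finset ι) (χ : ι → GQ → ZMod p) (y : ι → ResidueField P)
    (h : ∀ i ∈ s, KRel P ζ (χ i) (y i)) : KRel P ζ (∑ i ∈ s, χ i) (∑ i ∈ s, y i) := by
  classical
  induction s using Finset.induction_on with
  | empty =>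
    rw [Finset.sum_empty, Finset.sum_empty]
    exact KRel.zero
  | insert i s hi ih =>
    rw [Finset.sum_insert hi, Finset.sum_insert hi]
    exact KRel.add hζ1 hP (h i (Finset.mem_insert_self i s))
      (ih fun j hj => h j (Finset.mem_insert_of_mem hj))

/-- Binomial expansion in `P`: `(1 + u) ^ p = 1 + u ^ p + p u R` with `R ∈ P`. -/
theorem exists_binom (hp : p.Prime) {u : Qb} (hu : u ∈ P) :
    ∃ R ∈ P, (u + 1) ^ p = u ^ p + 1 + (p : Qb) * u * R := by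
  obtain ⟨R, hR⟩ := exists_add_pow_prime_eq hp (⟨u, hu⟩ : P) 1
  refine ⟨(R : Qb), R.2, ?_⟩
  have := congrArg (Subtype.val : P → Qb) hR
  simpa using this

/-- `v(π) ^ p < v(p)`, `π = ζ - 1`. -/
theorem val_pi_pow_lt (hp : p.Prime) (hP : P.LiesOverPrime p) (hζ : IsPrimitiveRoot ζ p) :
    P.valuation (ζ - 1) ^ p < P.valuation (p : Qb) := by
  have hπ0 := Fermat.Agent.S14.H894.valuation_zeta_sub_one_ne_zero P p hp ζ hζ
  have hπ1 := Fermat.Agent.S14.H894.valuation_zeta_sub_one_lt_one P p hp hP ζ hζ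
  rw [Fermat.Agent.S14.H894.valuation_natCast_eq_pow P p hp ζ hζ]
  conv_lhs => rw [← Nat.sub_add_cancel hp.one_le, pow_succ]
  calc P.valuation (ζ - 1) ^ (p - 1) * P.valuation (ζ - 1)
      < P.valuation (ζ - 1) ^ (p - 1) * 1 :=
        mul_lt_mul_of_pos_left hπ1 (pow_pos (zero_lt_iff.mpr hπ0) _)
    _ = P.valuation (ζ - 1) ^ (p - 1) := mul_one _

/-- If `w` is fixed by `H`, `w ∈ P` and `v(w ^ p - 1) < 1`, then `v(w ^ p - 1) ≤ v(π) ^ p`. -/
theorem val_pow_sub_one_le (hp : p.Prime) (hP : P.LiesOverPrime p) (hζ : IsPrimitiveRoot ζ p)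
    {w : Qb} (hwP : w ∈ P)
    (hwfix : ∀ σ ∈ P.inertiaSubgroupIn ℚ, σ ζ = ζ → σ w = w)
    (hlt : P.valuation (w ^ p - 1) < 1) :
    P.valuation (w ^ p - 1) ≤ P.valuation (ζ - 1) ^ p := by
  have hπ0 := Fermat.Agent.S14.H894.valuation_zeta_sub_one_ne_zero P p hp ζ hζ
  have hπ1 := Fermat.Agent.S14.H894.valuation_zeta_sub_one_lt_one P p hp hP ζ hζ
  have hpπ := Fermat.Agent.S14.H894.valuation_natCast_eq_pow P p hp ζ hζ
  have huP : w - 1 ∈ P := sub_mem hwP P.one_mem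
  obtain ⟨R, hRP, hR⟩ := exists_binom hp huP
  rw [sub_add_cancel] at hR
  have hpu : P.valuation ((p : Qb) * (w - 1) * R) ≤ P.valuation (p : Qb) := by
    rw [map_mul, map_mul]
    calc P.valuation (p : Qb) * P.valuation (w - 1) * P.valuation R
        ≤ P.valuation (p : Qb) * 1 * 1 :=
          mul_le_mul' (mul_le_mul_right (val_le_one huP) _) (val_le_one hRP)
      _ = P.valuation (p : Qb) := by rw [mul_one, mul_one]
  -- `v(w - 1) < 1`
  have hu_lt : P.valuation (w - 1) < 1 := by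
    by_contra hcon
    rw [not_lt] at hcon
    have h1 : (1 : P.ValueGroup) ≤ P.valuation (w - 1) ^ p := one_le_pow₀ hcon
    have h2 : (w - 1) ^ p = (w ^ p - 1) - (p : Qb) * (w - 1) * R := by rw [hR]; ring
    have h3 : P.valuation ((w - 1) ^ p) < 1 := by
      rw [h2]
      exact lt_of_le_of_lt (Valuation.map_sub _ _ _)
        (max_lt hlt (lt_of_le_of_lt hpu (val_p_lt_one hP)))
    rw [map_pow] at h3
    exact absurd h3 (not_lt.mpr h1)
  have hufix : ∀ σ ∈ P.inertiaSubgroupIn ℚ, σ ζ = ζ → σ (w - 1) = w - 1 := by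
    intro σ hσ hσζ
    rw [map_sub, map_one, hwfix σ hσ hσζ]
  have hule : P.valuation (w - 1) ≤ P.valuation (ζ - 1) :=
    Fermat.Agent.S56.H66.vg1_le P p hp hP ζ hζ (w - 1) ((P.mem_nonunits_iff).mpr hu_lt) hufix
  have h4 : w ^ p - 1 = (w - 1) ^ p + (p : Qb) * (w - 1) * R := by rw [hR]; ring
  rw [h4]
  refine le_trans (Valuation.map_add _ _ _) (max_le ?_ ?_)
  · rw [map_pow]
    exact pow_le_pow_left₀ zero_le hule p
  · rw [map_mul, map_mul, hpπ]
    conv_rhs => rw [← Nat.sub_add_cancel hp.one_le, pow_succ]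
    calc P.valuation (ζ - 1) ^ (p - 1) * P.valuation (w - 1) * P.valuation R
        ≤ P.valuation (ζ - 1) ^ (p - 1) * P.valuation (ζ - 1) * 1 :=
          mul_le_mul' (mul_le_mul_right hule _) (val_le_one hRP)
      _ = P.valuation (ζ - 1) ^ (p - 1) * P.valuation (ζ - 1) := mul_one _

/-- **Uniqueness** of the residue invariant. -/
theorem KRel.unique (hp : p.Prime) (hP : P.LiesOverPrime p) (hζ : IsPrimitiveRoot ζ p)
    {χ : GQ → ZMod p} {y y' : ResidueField P} (h : KRel P ζ χ y) (h' : KRel P ζ χ y') :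
    y = y' := by
  obtain ⟨a, r, ha, -, hr, hgen, hy⟩ := h
  obtain ⟨a', r', ha', -, hr', hgen', hy'⟩ := h'
  rw [← hy, ← hy', resQ_eq_iff ha ha']
  by_contra hcon
  rw [not_lt] at hcon
  have hv1 : P.valuation (a - a') = 1 := le_antisymm (val_le_one (sub_mem ha ha')) hcon
  have hvr := val_eq_one_of_pow hp.ne_zero hP ha hr
  have hvr' := val_eq_one_of_pow hp.ne_zero hP ha' hr'
  have hr'0 := ne_zero_of_val_eq_one hvr'
  have hvw : P.valuation (r / r') = 1 := by rw [map_div₀, hvr, hvr', div_one]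
  have hwP : r / r' ∈ P := mem_of_val_eq_one hvw
  have hζ0 : ζ ≠ 0 := hζ.ne_zero hp.ne_zero
  have hwfix : ∀ σ ∈ P.inertiaSubgroupIn ℚ, σ ζ = ζ → σ (r / r') = r / r' := by
    intro σ hσ hσζ
    rw [map_div₀, hgen σ hσ hσζ, hgen' σ hσ hσζ, mul_div_mul_left _ _ (zp_ne_zero hζ0 _)]
  have h1 : (1 + (p : Qb) * a') ≠ 0 := by rw [← hr']; exact pow_ne_zero _ hr'0
  have hwp : (r / r') ^ p - 1 = (p : Qb) * (a - a') / (1 + (p : Qb) * a') := by
    rw [div_pow, hr, hr']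
    field_simp
    ring
  have hvwp : P.valuation ((r / r') ^ p - 1) = P.valuation (p : Qb) := by
    rw [hwp, map_div₀, map_mul, hv1, mul_one, val_one_add hP ha', div_one]
  have hle := val_pow_sub_one_le hp hP hζ hwP hwfix (by rw [hvwp]; exact val_p_lt_one hP)
  rw [hvwp] at hle
  exact absurd (val_pi_pow_lt hp hP hζ) (not_lt.mpr hle)

/-- **Kernel** of the residue invariant (a Krasner-type root lemma): if `1 + p a`, `a ∈ 𝔪_P`
fixed by inertia, has a `p`-th root which is a Kummer generator of `χ` on `H`, then `χ|_H = 0`. -/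
theorem KRel.ker (hp : p.Prime) (hp2 : p ≠ 2) (hP : P.LiesOverPrime p)
    (hζ : IsPrimitiveRoot ζ p) {χ : GQ → ZMod p} (h : KRel P ζ χ 0) :
    ∀ σ ∈ P.inertiaSubgroupIn ℚ, σ ζ = ζ → χ σ = 0 := by
  haveI : NeZero p := ⟨hp.ne_zero⟩
  haveI : Algebra.IsAlgebraic ℚ Qb := AlgebraicClosure.isAlgebraic ℚ
  obtain ⟨a, r, ha, hfa, hr, hgen, hy⟩ := h
  intro σ hσ hσζ
  by_contra hχ
  have hπ0 := Fermat.Agent.S14.H894.valuation_zeta_sub_one_ne_zero P p hp ζ hζ
  have hπ1 := Fermat.Agent.S14.H894.valuation_zeta_sub_one_lt_one P p hp hP ζ hζ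
  have hpπ := Fermat.Agent.S14.H894.valuation_natCast_eq_pow P p hp ζ hζ
  have hvr := val_eq_one_of_pow hp.ne_zero hP ha hr
  have hva : P.valuation a ≤ P.valuation (p : Qb) :=
    Fermat.Agent.S56.H66.vg0_le p hp P hP a
      ((P.mem_nonunits_iff).mpr ((resQ_eq_zero_iff ha).mp hy)) hfa
  have hζ'prim : IsPrimitiveRoot (zp ζ (χ σ)) p := by
    unfold zp
    refine hζ.pow_of_coprime _ ?_
    have hne : (χ σ).val ≠ 0 := fun h0 => hχ ((ZMod.val_eq_zero _).mp h0)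
    exact (Nat.coprime_of_lt_prime hne (ZMod.val_lt _) hp).symm
  have hσD : σ ∈ P.decompositionSubgroup ℚ :=
    Fermat.Agent.A2.H708.mem_decomposition_of_mem_inertiaIn P hσ
  have hσr : σ r = zp ζ (χ σ) * r := hgen σ hσ hσζ
  have hσζ' : σ (zp ζ (χ σ)) = zp ζ (χ σ) := by
    unfold zp
    rw [map_pow, hσζ]
  have hpow : ∀ i : ℕ, (σ ^ i) r = zp ζ (χ σ) ^ i * r := by
    intro i
    induction i with
    | zero => simp
    | succ i ih =>
      rw [pow_succ', AlgEquiv.mul_apply, ih, map_mul, map_pow, hσζ', hσr]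
      ring
  have hval : ∀ μ ∈ Polynomial.nthRootsFinset p (1 : Qb),
      P.valuation (1 - μ * r) = P.valuation (1 - r) := by
    intro μ hμ
    have hμ1 : μ ^ p = 1 := (Polynomial.mem_nthRootsFinset hp.pos 1).mp hμ
    obtain ⟨i, -, rfl⟩ := hζ'prim.eq_pow_of_pow_eq_one hμ1
    rw [← hpow i]
    have h1 : (1 : Qb) - (σ ^ i) r = (σ ^ i) (1 - r) := by rw [map_sub, map_one]
    rw [h1]
    exact Fermat.Agent.A2.H708.valuation_apply_of_mem_decomposition P (pow_mem hσD i) _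
  have hprod : P.valuation (1 - r ^ p) = P.valuation (1 - r) ^ p := by
    have h1 := hζ'prim.pow_sub_pow_eq_prod_sub_mul (1 : Qb) r hp.pos
    rw [one_pow] at h1
    rw [h1, map_prod, Finset.prod_congr rfl hval, Finset.prod_const,
      hζ'prim.card_nthRootsFinset]
  have h1 : P.valuation (1 - r ^ p) ≤ P.valuation (p : Qb) * P.valuation (p : Qb) := by
    have e : (1 : Qb) - (1 + (p : Qb) * a) = -((p : Qb) * a) := by ring
    rw [hr, e, Valuation.map_neg, map_mul]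
    exact mul_le_mul_right hva _
  have h2 : P.valuation (ζ - 1) ≤ P.valuation (1 - r) := by
    have e1 : σ r - r = (zp ζ (χ σ) - 1) * r := by rw [hσr]; ring
    have e2 : σ r - r = (1 - r) - σ (1 - r) := by rw [map_sub, map_one]; ring
    have v1 : P.valuation (σ r - r) = P.valuation (ζ - 1) := by
      rw [e1, map_mul, hvr, mul_one]
      exact Fermat.Agent.S14.H894.valuation_sub_one_eq_of_mem_primitiveRoots P p hp ζ hζ
        ((mem_primitiveRoots hp.pos).mpr hζ'prim)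
    rw [← v1, e2]
    refine le_trans (Valuation.map_sub _ _ _) (max_le le_rfl ?_)
    rw [Fermat.Agent.A2.H708.valuation_apply_of_mem_decomposition P hσD]
  have h3 : P.valuation (ζ - 1) ^ p ≤
      P.valuation (ζ - 1) ^ (p - 1) * P.valuation (ζ - 1) ^ (p - 1) := by
    calc P.valuation (ζ - 1) ^ p ≤ P.valuation (1 - r) ^ p := pow_le_pow_left₀ zero_le h2 p
      _ = P.valuation (1 - r ^ p) := hprod.symm
      _ ≤ _ := by rw [← hpπ]; exact h1
  have h4 : P.valuation (ζ - 1) ^ (p - 1) * P.valuation (ζ - 1) ^ (p - 1) <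
      P.valuation (ζ - 1) ^ p := by
    have h3p : 3 ≤ p := by
      have := hp.two_le
      omega
    have e : (p - 1) + (p - 1) = p + (p - 2) := by omega
    rw [← pow_add, e, pow_add]
    calc P.valuation (ζ - 1) ^ p * P.valuation (ζ - 1) ^ (p - 2)
        < P.valuation (ζ - 1) ^ p * 1 :=
          mul_lt_mul_of_pos_left (pow_lt_one₀ zero_le hπ1 (by omega))
            (pow_pos (zero_lt_iff.mpr hπ0) _)
      _ = P.valuation (ζ - 1) ^ p := mul_one _
  exact absurd h3 (not_le.mpr h4)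

theorem kum_apply_inv (φ : GQ) (z : Qb) : φ (φ⁻¹ z) = z := by
  show (φ * φ⁻¹) z = z
  rw [mul_inv_cancel]
  rfl

theorem kum_inv_apply (φ : GQ) (z : Qb) : φ⁻¹ (φ z) = z := by
  show (φ⁻¹ * φ) z = z
  rw [inv_mul_cancel]
  rfl

/-- Conjugation by an element of the decomposition group preserves `H`. -/
theorem conj_mem_H {φ σ : GQ} (hφ : φ ∈ P.decompositionSubgroup ℚ) {n : ℕ}
    (hn : IsCycExp p φ n) (hζ1 : ζ ^ p = 1) (hσ : σ ∈ P.inertiaSubgroupIn ℚ) (hσζ : σ ζ = ζ) :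
    φ⁻¹ * σ * φ ∈ P.inertiaSubgroupIn ℚ ∧ (φ⁻¹ * σ * φ) ζ = ζ := by
  constructor
  · have h := Fermat.Agent.S56.H794.conj_mem_inertiaIn P (inv_mem hφ) hσ
    rwa [inv_inv] at h
  · show φ⁻¹ (σ (φ ζ)) = ζ
    rw [hn ζ hζ1, map_pow, hσζ, ← hn ζ hζ1, kum_inv_apply]

/-- **Frobenius twist** of the residue invariant. -/
theorem KRel.frob (hζ1 : ζ ^ p = 1) [NeZero p] {φ : GQ}
    (hφ : P.IsFrobeniusAt φ p) {n : ℕ} (hn : IsCycExp p φ n) {χ : GQ → ZMod p}
    {y : ResidueField P} (h : KRel P ζ χ y) :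
    KRel P ζ (fun σ => (n : ZMod p) * χ (φ⁻¹ * σ * φ)) (y ^ p) := by
  obtain ⟨a, r, ha, hfa, hr, hgen, hy⟩ := h
  have hφD : φ ∈ P.decompositionSubgroup ℚ := hφ.mem_decompositionSubgroup
  have happ : ∀ (σ : GQ) (x : Qb), σ (φ x) = φ ((φ⁻¹ * σ * φ) x) := by
    intro σ x
    show σ (φ x) = φ (φ⁻¹ (σ (φ x)))
    rw [kum_apply_inv]
  have hφa : φ a ∈ P := Fermat.Agent.A2.H708.apply_mem_of_mem_decomposition P hφD ha
  refine ⟨φ a, φ r, hφa, ?_, ?_, ?_, ?_⟩
  · intro σ hσ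
    have h1 : φ⁻¹ * σ * φ ∈ P.inertiaSubgroupIn ℚ := by
      have h := Fermat.Agent.S56.H794.conj_mem_inertiaIn P (inv_mem hφD) hσ
      rwa [inv_inv] at h
    rw [happ, hfa _ h1]
  · rw [← map_pow, hr, map_add, map_one, map_mul, map_natCast]
  · intro σ hσ hσζ
    obtain ⟨h1, h2⟩ := conj_mem_H hφD hn hζ1 hσ hσζ
    rw [happ, hgen _ h1 h2, map_mul, apply_zp hζ1 hn]
  · rw [← hy, ← resQ_pow ha, resQ_eq_iff hφa (pow_mem ha p)]
    exact (P.mem_nonunits_iff).mp (Fermat.Agent.Lib.Cheb.H643.IsFrobeniusAt_sub_pow_mem hφ ha)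

/-- **Existence** of the residue invariant for an `ω`-twisted cocycle on `I_P` of finite level
having a unit Kummer generator on `H`. -/
theorem KRel.exists_of_unit (hp : p.Prime) (hP : P.LiesOverPrime p) (hζ : IsPrimitiveRoot ζ p)
    {χ : GQ → ZMod p}
    (hcoc : ∀ σ ∈ P.inertiaSubgroupIn ℚ, ∀ τ ∈ P.inertiaSubgroupIn ℚ, ∀ a : ℕ,
      IsCycExp p σ a → χ (σ * τ) = χ σ + (a : ZMod p) * χ τ)
    (hlev : ∃ L : IntermediateField ℚ Qb, FiniteDimensional ℚ L ∧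
      ∀ σ ∈ P.inertiaSubgroupIn ℚ, ∀ τ ∈ P.inertiaSubgroupIn ℚ,
        (∀ x ∈ L, τ x = x) → χ (σ * τ) = χ σ)
    (hB : ∃ B : Qb, P.valuation B = 1 ∧ IsKumGen P ζ χ B) :
    ∃ y, KRel P ζ χ y := by
  haveI : NeZero p := ⟨hp.ne_zero⟩
  haveI : Algebra.IsAlgebraic ℚ Qb := AlgebraicClosure.isAlgebraic ℚ
  obtain ⟨B, hvB, hBgen⟩ := hB
  obtain ⟨β, hβ0, hβ⟩ := hilbert90 hζ (P.inertiaSubgroupIn ℚ) χ hcoc hlev
  have hπ0 := Fermat.Agent.S14.H894.valuation_zeta_sub_one_ne_zero P p hp ζ hζ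
  have hπ1 := Fermat.Agent.S14.H894.valuation_zeta_sub_one_lt_one P p hp hP ζ hζ
  have hpπ := Fermat.Agent.S14.H894.valuation_natCast_eq_pow P p hp ζ hζ
  have hζ0 : ζ ≠ 0 := hζ.ne_zero hp.ne_zero
  have hζ1 : ζ ^ p = 1 := hζ.pow_eq_one
  have hp0 : (p : Qb) ≠ 0 := by exact_mod_cast hp.ne_zero
  have hvp0 : P.valuation (p : Qb) ≠ 0 := (Valuation.ne_zero_iff _).mpr hp0
  -- Step 1: the valuation of `β` is an integral power of `v(p)`
  have hB0 : B ≠ 0 := ne_zero_of_val_eq_one hvB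
  have hwfix : ∀ σ ∈ P.inertiaSubgroupIn ℚ, σ ζ = ζ → σ (β / B) = β / B := by
    intro σ hσ hσζ
    rw [map_div₀, hβ σ hσ, hBgen σ hσ hσζ, mul_div_mul_left _ _ (zp_ne_zero hζ0 _)]
  obtain ⟨n, hn⟩ := Fermat.Agent.S56.H66.vg1 P p hp hP ζ hζ (β / B) (div_ne_zero hβ0 hB0) hwfix
  rw [map_div₀, hvB, div_one] at hn
  have hβpfix : ∀ σ ∈ P.inertiaSubgroupIn ℚ, σ (β ^ p) = β ^ p := by
    intro σ hσ
    rw [map_pow, hβ σ hσ, mul_pow, zp_pow_self hζ1, one_mul]
  obtain ⟨m, hm⟩ := Fermat.Agent.S56.H66.vg0 p hp P hP (β ^ p) (pow_ne_zero _ hβ0) hβpfix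
  have hnm : n * (p : ℤ) = ((p - 1 : ℕ) : ℤ) * m := by
    apply zpow_right_injective₀ (zero_lt_iff.mpr hπ0) hπ1.ne
    show P.valuation (ζ - 1) ^ (n * (p : ℤ)) = P.valuation (ζ - 1) ^ (((p - 1 : ℕ) : ℤ) * m)
    rw [zpow_mul, ← hn, zpow_natCast, ← map_pow, hm, hpπ, zpow_mul, zpow_natCast]
  have hpm : (p : ℤ) ∣ m := by
    have h1 : (p : ℤ) ∣ ((p - 1 : ℕ) : ℤ) * m := ⟨n, by rw [← hnm]; ring⟩
    have hcop : IsCoprime (p : ℤ) ((p - 1 : ℕ) : ℤ) := by
      rw [Nat.isCoprime_iff_coprime]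
      have h2 : (p - 1).Coprime p := by
        have := hp.two_le
        exact (Nat.coprime_of_lt_prime (by omega) (by omega) hp).symm
      exact h2.symm
    exact hcop.dvd_of_dvd_mul_left h1
  obtain ⟨m', rfl⟩ := hpm
  have hvβ : P.valuation β = P.valuation (p : Qb) ^ m' := by
    have h1 : P.valuation β ^ p = (P.valuation (p : Qb) ^ m') ^ p := by
      rw [← map_pow, hm, ← zpow_natCast (P.valuation (p : Qb) ^ m') p, ← zpow_mul, mul_comm]
    exact (pow_left_inj₀ zero_le zero_le hp.ne_zero).mp h1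
  -- Step 2: a unit generator on `I` with inertia-fixed `p`-th power
  obtain ⟨r₀, hr₀⟩ : ∃ r₀ : Qb, r₀ = β / (p : Qb) ^ m' := ⟨_, rfl⟩
  have hr₀v : P.valuation r₀ = 1 := by
    rw [hr₀, map_div₀, map_zpow₀, hvβ, div_self (zpow_ne_zero _ hvp0)]
  have hr₀gen : ∀ σ ∈ P.inertiaSubgroupIn ℚ, σ r₀ = zp ζ (χ σ) * r₀ := by
    intro σ hσ
    rw [hr₀, map_div₀, hβ σ hσ, map_zpow₀, map_natCast, mul_div_assoc]
  have hr₀P : r₀ ∈ P := mem_of_val_eq_one hr₀v
  obtain ⟨u, hu⟩ : ∃ u : Qb, u = r₀ ^ p := ⟨_, rfl⟩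
  have huP : u ∈ P := by rw [hu]; exact pow_mem hr₀P p
  have hufix : ∀ σ ∈ P.inertiaSubgroupIn ℚ, σ u = u := by
    intro σ hσ
    rw [hu, map_pow, hr₀gen σ hσ, mul_pow, zp_pow_self hζ1, one_mul]
  have huv : P.valuation u = 1 := by rw [hu, map_pow, hr₀v, one_pow]
  -- Step 3: Teichmüller
  obtain ⟨φ, hφ⟩ := Fermat.Agent.Lib.Cheb.H643.exists_isFrobeniusAt p hp P hP
  obtain ⟨N, hN0, hN⟩ := Fermat.Agent.A2.H708.exists_pow_apply_eq φ u
  obtain ⟨N', rfl⟩ : ∃ N', N = N' + 1 := ⟨N - 1, by omega⟩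
  have hq2 : 2 ≤ p ^ (N' + 1) := by
    calc 2 ≤ p := hp.two_le
      _ = p ^ 1 := (pow_one p).symm
      _ ≤ p ^ (N' + 1) := Nat.pow_le_pow_right hp.pos (by omega)
  obtain ⟨s, hs⟩ : ∃ s, p ^ (N' + 1) = s + 2 := ⟨p ^ (N' + 1) - 2, by omega⟩
  have hfrob := Fermat.Agent.S56.H606.frobenius_pow_sub_pow_mem_nonunits P hφ (N' + 1) huP
  rw [hN, hs] at hfrob
  have hres : resQ P u = resQ P u ^ (s + 2) := by
    rw [← resQ_pow huP, resQ_eq_iff huP (pow_mem huP _)]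
    exact (P.mem_nonunits_iff).mp hfrob
  have hres0 : resQ P u ≠ 0 := by
    rw [Ne, resQ_eq_zero_iff huP, huv]
    exact lt_irrefl _
  have hres1 : resQ P u ^ (s + 1) = 1 := by
    have h1 : resQ P u * resQ P u ^ (s + 1) = resQ P u * 1 := by
      rw [mul_one, ← pow_succ']
      exact hres.symm
    exact mul_left_cancel₀ hres0 h1
  -- the generator
  have hrP : r₀ * u ^ (p ^ N' * s) ∈ P := P.mul_mem _ _ hr₀P (pow_mem huP _)
  have hrpow : (r₀ * u ^ (p ^ N' * s)) ^ p = (u ^ (s + 1)) ^ (s + 1) := by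
    have h1 : p ^ N' * s * p = (s + 2) * s := by
      rw [← hs, pow_succ]
      ring
    rw [mul_pow, ← hu, ← pow_mul, ← pow_mul, h1, ← pow_succ']
    congr 1
    ring
  have hrnon : (r₀ * u ^ (p ^ N' * s)) ^ p - 1 ∈ P.nonunits := by
    rw [P.mem_nonunits_iff, ← resQ_eq_iff (pow_mem hrP p) P.one_mem, hrpow,
      resQ_pow (pow_mem huP _), resQ_pow huP, hres1, one_pow, resQ_one]
  have hrfix : ∀ σ ∈ P.inertiaSubgroupIn ℚ,
      σ ((r₀ * u ^ (p ^ N' * s)) ^ p - 1) = (r₀ * u ^ (p ^ N' * s)) ^ p - 1 := by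
    intro σ hσ
    rw [hrpow, map_sub, map_one, map_pow, map_pow, hufix σ hσ]
  obtain ⟨a, haP, ha⟩ := Fermat.Agent.S56.H66.vg0_mem P p hp hP _ hrnon hrfix
  refine ⟨resQ P a, a, r₀ * u ^ (p ^ N' * s), haP, ?_, ?_, ?_, rfl⟩
  · intro σ hσ
    have h1 := hrfix σ hσ
    rw [ha, map_mul, map_natCast] at h1
    exact mul_left_cancel₀ hp0 h1
  · rw [← ha]
    ring
  · intro σ hσ _
    rw [map_mul, hr₀gen σ hσ, map_pow, hufix σ hσ, mul_assoc]

end kum

end Fermat.Agent.S56.H734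

end
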