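import Fermat.Agent.S56.H906.FlatOSpec
import Fermat.Agent.S56.H734.KumCount
import Fermat.Agent.S56.H734.KumLocal

/-!
# S56 / FLAT-O, leaf KUM (helper734): `kum : H906.KumStatement`

`P | p`, `p` odd, `a : D_P → kˣ` a character of finite level which is the mod-`p` cyclotomic
character on inertia.  The peu ramifié classes in `H¹(D_P, k(a))` span at most one dimension.

Proof.  `H = {σ ∈ I_P : σ ζ = ζ}`.
* restriction to `H` is injective on classes (`coboundary_of_vanish`);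
* for a peu ramifié cocycle `c` and an `𝔽_p`-basis `ℓ_i` of `k^∨`, the Kummer class of `ℓ_i ∘ c|_H`
  is the class of a unit `1 + p a_i` of the inertia field; `Y(c) = (a_i mod 𝔪_P)_i` is well
  defined, additive, and `Y(c) = 0` iff `c` is a coboundary (`KumLocal.lean`);
* `Y(c)` is a fixed point of a `p`-semilinear endomorphism of `κ_P ^ f`, `f = [k : 𝔽_p]`
  (Frobenius twist), and there are at most `p ^ f = |k|` such fixed points (`KumCount.lean`).
-/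

set_option autoImplicit false
set_option linter.style.haveILetI false

noncomputable section

namespace Fermat.Agent.S56.H734

open Fermat.Agent.S56 Fermat.Agent.S56.H786 Fermat.Agent.S56.H906 IsLocalRing

/-! ## A basis of `k` over `𝔽_p`, in additive vocabulary -/

theorem exists_zmod_basis (p : ℕ) [Fact p.Prime] (k : Type) [Field k] [Finite k] [CharP k p] :
    ∃ (f : ℕ) (b : Fin f → k) (ℓ : Fin f → (k →+ ZMod p)),
      (∀ y : k, ∑ i, (ℓ i y).val • b i = y) ∧ Nat.card k = p ^ f := by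
  letI : Algebra (ZMod p) k := ZMod.algebra k p
  haveI : Module.Finite (ZMod p) k := Module.Finite.of_finite
  let B := Module.finBasis (ZMod p) k
  refine ⟨Module.finrank (ZMod p) k, B, fun i => (B.coord i).toAddMonoidHom, ?_, ?_⟩
  · intro y
    conv_rhs => rw [← B.sum_repr y]
    refine Finset.sum_congr rfl fun i _ => ?_
    show ((B.coord i) y).val • B i = (B.repr y) i • B i
    rw [B.coord_apply, ← Nat.cast_smul_eq_nsmul (ZMod p), ZMod.natCast_zmod_val]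
  · rw [Module.natCard_eq_pow_finrank (K := ZMod p) (V := k), Nat.card_zmod]

/-- Additive maps to `ZMod p` commute with multiplication by natural numbers. -/
theorem map_natCast_mul {p : ℕ} {k : Type} [Field k] (ℓ : k →+ ZMod p) (n : ℕ) (y : k) :
    ℓ ((n : k) * y) = (n : ZMod p) * ℓ y := by
  rw [← nsmul_eq_mul, map_nsmul, nsmul_eq_mul]

/-! ## Cocycles -/

section cocycle

variable {p : ℕ} {P : ValuationSubring Qb} {k : Type} [Field k] {a c : GQ → k}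

theorem locChar_inv (ha : IsLocChar P a) {g : GQ} (hg : g ∈ P.decompositionSubgroup ℚ) :
    a g ≠ 0 ∧ a g⁻¹ = (a g)⁻¹ := by
  have h1 : a g * a g⁻¹ = 1 := by
    rw [← ha.map_mul g hg g⁻¹ (inv_mem hg), mul_inv_cancel, ha.map_one]
  have h0 : a g ≠ 0 := left_ne_zero_of_mul_eq_one h1
  exact ⟨h0, eq_inv_of_mul_eq_one_right h1⟩

theorem locCocycle_one (hc : IsLocCocycle P a c) (ha : IsLocChar P a) : c 1 = 0 := by
  have h := hc.map_mul 1 (one_mem _) 1 (one_mem _)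
  rw [mul_one, ha.map_one, one_mul] at h
  exact left_eq_add.mp h

theorem locCocycle_inv (hc : IsLocCocycle P a c) (ha : IsLocChar P a) {g : GQ}
    (hg : g ∈ P.decompositionSubgroup ℚ) : c g⁻¹ = -((a g)⁻¹ * c g) := by
  have h := hc.map_mul g⁻¹ (inv_mem hg) g hg
  rw [inv_mul_cancel, locCocycle_one hc ha, (locChar_inv ha hg).2] at h
  exact eq_neg_of_add_eq_zero_left h.symm

/-- `c (g⁻¹ σ g) = a(g)⁻¹ c(σ)` when `a σ = 1`. -/
theorem locCocycle_conj (hc : IsLocCocycle P a c) (ha : IsLocChar P a) {g σ : GQ}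
    (hg : g ∈ P.decompositionSubgroup ℚ) (hσ : σ ∈ P.decompositionSubgroup ℚ) (h1 : a σ = 1) :
    c (g⁻¹ * σ * g) = (a g)⁻¹ * c σ := by
  rw [mul_assoc, hc.map_mul g⁻¹ (inv_mem hg) (σ * g) (mul_mem hσ hg), hc.map_mul σ hσ g hg,
    locCocycle_inv hc ha hg, (locChar_inv ha hg).2, h1]
  ring

theorem locCocycle_smul (hc : IsLocCocycle P a c) (x : k) :
    IsLocCocycle P a (fun σ => x * c σ) := by
  refine ⟨fun σ hσ τ hτ => ?_, ?_⟩
  · show x * c (σ * τ) = x * c σ + a σ * (x * c τ)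
    rw [hc.map_mul σ hσ τ hτ]
    ring
  · obtain ⟨L, hL, h⟩ := hc.level
    exact ⟨L, hL, fun σ hσ τ hτ hfix => by
      show x * c (σ * τ) = x * c σ
      rw [h σ hσ τ hτ hfix]⟩

theorem locCocycle_sub {c' : GQ → k} (hc : IsLocCocycle P a c) (hc' : IsLocCocycle P a c') :
    IsLocCocycle P a (fun σ => c σ - c' σ) := by
  refine ⟨fun σ hσ τ hτ => ?_, ?_⟩
  · show c (σ * τ) - c' (σ * τ) = c σ - c' σ + a σ * (c τ - c' τ)
    rw [hc.map_mul σ hσ τ hτ, hc'.map_mul σ hσ τ hτ]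
    ring
  · obtain ⟨L, hL, h⟩ := hc.level
    obtain ⟨L', hL', h'⟩ := hc'.level
    haveI := hL
    haveI := hL'
    refine ⟨L ⊔ L', inferInstance, fun σ hσ τ hτ hfix => ?_⟩
    show c (σ * τ) - c' (σ * τ) = c σ - c' σ
    rw [h σ hσ τ hτ fun x hx => hfix x ((le_sup_left : L ≤ L ⊔ L') hx),
      h' σ hσ τ hτ fun x hx => hfix x ((le_sup_right : L' ≤ L ⊔ L') hx)]

theorem isPeu_smul (hc : IsPeu p P c) (x : k) : IsPeu p P (fun σ => x * c σ) := by
  intro ζ hζ ℓ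
  exact hc ζ hζ (ℓ.comp (AddMonoidHom.mulLeft x))

end cocycle

/-! ## Restriction to `H` is injective on classes -/

section restrict

variable {p : ℕ} {P : ValuationSubring Qb} {k : Type} [Field k] {a c : GQ → k}

/-- Elements fixing `ζ` have cyclotomic exponent `1`. -/
theorem isCycExp_one_of_fix [NeZero p] {ζ : Qb} (hζ : IsPrimitiveRoot ζ p) {σ : GQ}
    (h : σ ζ = ζ) : IsCycExp p σ 1 := by
  intro μ hμ
  obtain ⟨i, -, rfl⟩ := hζ.eq_pow_of_pow_eq_one hμ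
  rw [map_pow, h, pow_one]

theorem ordChar_eq_one [NeZero p] (ha : IsOrdChar p P a) {ζ : Qb} (hζ : IsPrimitiveRoot ζ p)
    {σ : GQ} (hσ : σ ∈ P.inertiaSubgroupIn ℚ) (h : σ ζ = ζ) : a σ = 1 := by
  rw [ha.cyc σ hσ 1 (isCycExp_one_of_fix hζ h), Nat.cast_one]

/-- Inertia at `p` moves `ζ_p`, `p` odd. -/
theorem exists_inertia_move (hp : p.Prime) (hp2 : p ≠ 2) (hP : P.LiesOverPrime p) {ζ : Qb}
    (hζ : IsPrimitiveRoot ζ p) : ∃ t ∈ P.inertiaSubgroupIn ℚ, t ζ ≠ ζ := by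
  by_contra hcon
  push Not at hcon
  have hfix : ∀ σ ∈ P.inertiaSubgroupIn ℚ, σ (ζ - 1) = ζ - 1 := fun σ hσ => by
    rw [map_sub, map_one, hcon σ hσ]
  have hπ0 := Fermat.Agent.S14.H894.valuation_zeta_sub_one_ne_zero P p hp ζ hζ
  have hπ1 := Fermat.Agent.S14.H894.valuation_zeta_sub_one_lt_one P p hp hP ζ hζ
  have hpπ := Fermat.Agent.S14.H894.valuation_natCast_eq_pow P p hp ζ hζ
  have hle := Fermat.Agent.S56.H66.vg0_le p hp P hP (ζ - 1) ((P.mem_nonunits_iff).mpr hπ1) hfix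
  rw [hpπ] at hle
  have h3p : 3 ≤ p := by
    have := hp.two_le
    omega
  have hlt : P.valuation (ζ - 1) ^ (p - 1) < P.valuation (ζ - 1) := by
    have e : p - 1 = 1 + (p - 2) := by omega
    rw [e, pow_add, pow_one]
    calc P.valuation (ζ - 1) * P.valuation (ζ - 1) ^ (p - 2)
        < P.valuation (ζ - 1) * 1 :=
          mul_lt_mul_of_pos_left (pow_lt_one₀ zero_le hπ1 (by omega)) (zero_lt_iff.mpr hπ0)
      _ = P.valuation (ζ - 1) := mul_one _
  exact absurd hle (not_le.mpr hlt)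

/-- A cocycle on `D_P` vanishing on `H` is a coboundary. -/
theorem coboundary_of_vanish [CharP k p] (hp : p.Prime) (hp2 : p ≠ 2) (hP : P.LiesOverPrime p)
    {ζ : Qb} (hζ : IsPrimitiveRoot ζ p) (ha : IsOrdChar p P a) (hc : IsLocCocycle P a c)
    (hvan : ∀ σ ∈ P.inertiaSubgroupIn ℚ, σ ζ = ζ → c σ = 0) :
    ∃ m : k, ∀ σ ∈ P.decompositionSubgroup ℚ, c σ = (a σ - 1) * m := by
  haveI : NeZero p := ⟨hp.ne_zero⟩
  obtain ⟨t, ht, htζ⟩ := exists_inertia_move hp hp2 hP hζ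
  obtain ⟨n, hn⟩ := Fermat.Agent.S56.H786.exists_isCycExp hζ t
  have hat : a t = (n : k) := ha.cyc t ht n hn
  have hat1 : a t ≠ 1 := by
    intro h1
    apply htζ
    rw [hat] at h1
    have h2 : ((n : ℕ) : k) = ((1 : ℕ) : k) := by rw [h1, Nat.cast_one]
    have h3 : n ≡ 1 [MOD p] := (CharP.natCast_eq_natCast k p).mp h2
    have hfin : IsOfFinOrder ζ :=
      isOfFinOrder_iff_pow_eq_one.mpr ⟨p, hp.pos, hζ.pow_eq_one⟩
    have h4 : ζ ^ n = ζ ^ 1 := by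
      rw [hfin.pow_eq_pow_iff_modEq, ← hζ.eq_orderOf]
      exact h3
    rw [hn ζ hζ.pow_eq_one, h4, pow_one]
  have htD : t ∈ P.decompositionSubgroup ℚ :=
    Fermat.Agent.A2.H708.mem_decomposition_of_mem_inertiaIn P ht
  have hne : a t - 1 ≠ 0 := sub_ne_zero.mpr hat1
  refine ⟨c t / (a t - 1), fun σ hσ => ?_⟩
  have hd : ∀ σ ∈ P.decompositionSubgroup ℚ, ∀ τ ∈ P.decompositionSubgroup ℚ,
      c (σ * τ) - (a (σ * τ) - 1) * (c t / (a t - 1)) =
        (c σ - (a σ - 1) * (c t / (a t - 1))) +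
          a σ * (c τ - (a τ - 1) * (c t / (a t - 1))) := by
    intro σ hσ τ hτ
    rw [hc.map_mul σ hσ τ hτ, ha.map_mul σ hσ τ hτ]
    ring
  have hdt : c t - (a t - 1) * (c t / (a t - 1)) = 0 := by
    rw [mul_div_cancel₀ _ hne, sub_self]
  have hhI : t⁻¹ * (σ * t * σ⁻¹) ∈ P.inertiaSubgroupIn ℚ :=
    mul_mem (inv_mem ht) (Fermat.Agent.S56.H794.conj_mem_inertiaIn P hσ ht)
  have hhζ : (t⁻¹ * (σ * t * σ⁻¹)) ζ = ζ := by
    show t⁻¹ (σ (t (σ⁻¹ ζ))) = ζ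
    have hμ : (σ⁻¹ ζ) ^ p = 1 := by rw [← map_pow, hζ.pow_eq_one, map_one]
    rw [hn _ hμ, map_pow, kum_apply_inv, ← hn ζ hζ.pow_eq_one, kum_inv_apply]
  have hhD := Fermat.Agent.A2.H708.mem_decomposition_of_mem_inertiaIn P hhI
  have hah : a (t⁻¹ * (σ * t * σ⁻¹)) = 1 := ordChar_eq_one ha hζ hhI hhζ
  have hch : c (t⁻¹ * (σ * t * σ⁻¹)) = 0 := hvan _ hhI hhζ
  have hgrp : σ * t = t * ((t⁻¹ * (σ * t * σ⁻¹)) * σ) := by group
  have e1 := hd σ hσ t htD
  have e2 := hd t htD ((t⁻¹ * (σ * t * σ⁻¹)) * σ) (mul_mem hhD hσ)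
  have e3 := hd (t⁻¹ * (σ * t * σ⁻¹)) hhD σ hσ
  rw [← hgrp] at e2
  rw [hdt] at e1 e2
  rw [hch, hah] at e3
  have key : (c σ - (a σ - 1) * (c t / (a t - 1))) * (a t - 1) = 0 := by
    linear_combination e1 - e2 - a t * e3
  rcases mul_eq_zero.mp key with h | h
  · exact sub_eq_zero.mp h
  · exact absurd h hne

end restrict

/-! ## The semilinear map -/

section frobT

variable (κ : Type*) [Field κ] (p : ℕ) [Fact p.Prime] [CharP κ p] {f : ℕ}

/-- `x ↦ ((∑ j, M i j • x j) ^ p)_i`. -/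
def frobT (M : Fin f → Fin f → ℕ) : (Fin f → κ) →+ (Fin f → κ) :=
  AddMonoidHom.mk' (fun x i => (∑ j, M i j • x j) ^ p) (by
    intro x y
    funext i
    simp only [Pi.add_apply, smul_add, Finset.sum_add_distrib]
    exact add_pow_char _ _ p)

variable {κ p}

theorem frobT_apply (M : Fin f → Fin f → ℕ) (x : Fin f → κ) (i : Fin f) :
    frobT κ p M x i = (∑ j, M i j • x j) ^ p := rfl

theorem frobT_smul (M : Fin f → Fin f → ℕ) (c : κ) (x : Fin f → κ) :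
    frobT κ p M (c • x) = c ^ p • frobT κ p M x := by
  funext i
  simp only [frobT_apply, Pi.smul_apply, smul_eq_mul]
  rw [← mul_pow]
  congr 1
  rw [Finset.mul_sum]
  refine Finset.sum_congr rfl fun j _ => ?_
  rw [nsmul_eq_mul, nsmul_eq_mul]
  ring

end frobT

/-! ## The invariant of a peu ramifié cocycle -/

section main

variable {p : ℕ} {P : ValuationSubring Qb} {k : Type} [Field k] {a c : GQ → k}

theorem charP_residue (hp : p.Prime) (hP : P.LiesOverPrime p) : CharP (ResidueField P) p := by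
  rw [CharP.charP_iff_prime_eq_zero hp]
  have h := resQ_natCast_self hP
  rw [resQ_of_mem (natCast_mem P p)] at h
  have e : (⟨(p : Qb), natCast_mem P p⟩ : P) = ((p : ℕ) : P) := rfl
  rw [e, map_natCast] at h
  exact h

theorem isCycExp_natCast_ne_zero [CharP k p] (hp : p.Prime) {ζ : Qb} (hζ : IsPrimitiveRoot ζ p)
    {σ : GQ} {n : ℕ} (hn : IsCycExp p σ n) : (n : k) ≠ 0 := by
  intro h0
  have hdvd : p ∣ n := (CharP.cast_eq_zero_iff k p n).mp h0
  have h1 : σ ζ = 1 := by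
    rw [hn ζ hζ.pow_eq_one]
    obtain ⟨m, rfl⟩ := hdvd
    rw [pow_mul, hζ.pow_eq_one, one_pow]
  have h2 : ζ = 1 := σ.injective (by rw [h1, map_one])
  exact hζ.ne_one hp.one_lt h2

/-- The components of a cocycle are `ω`-twisted cocycles of finite level on inertia. -/
theorem comp_cocycle (ha : IsOrdChar p P a) (hc : IsLocCocycle P a c) (ℓ : k →+ ZMod p) :
    (∀ σ ∈ P.inertiaSubgroupIn ℚ, ∀ τ ∈ P.inertiaSubgroupIn ℚ, ∀ n : ℕ, IsCycExp p σ n →
      ℓ (c (σ * τ)) = ℓ (c σ) + (n : ZMod p) * ℓ (c τ)) ∧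
    (∃ L : IntermediateField ℚ Qb, FiniteDimensional ℚ L ∧
      ∀ σ ∈ P.inertiaSubgroupIn ℚ, ∀ τ ∈ P.inertiaSubgroupIn ℚ,
        (∀ x ∈ L, τ x = x) → ℓ (c (σ * τ)) = ℓ (c σ)) := by
  have hID : ∀ σ ∈ P.inertiaSubgroupIn ℚ, σ ∈ P.decompositionSubgroup ℚ := fun σ hσ =>
    Fermat.Agent.A2.H708.mem_decomposition_of_mem_inertiaIn P hσ
  constructor
  · intro σ hσ τ hτ n hn
    rw [hc.map_mul σ (hID σ hσ) τ (hID τ hτ), ha.cyc σ hσ n hn, map_add, map_natCast_mul]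
  · obtain ⟨L, hL, h⟩ := hc.level
    exact ⟨L, hL, fun σ hσ τ hτ hfix => by rw [h σ (hID σ hσ) τ (hID τ hτ) hfix]⟩

theorem exists_KRel (hp : p.Prime) (hP : P.LiesOverPrime p) {ζ : Qb} (hζ : IsPrimitiveRoot ζ p)
    (ha : IsOrdChar p P a) (hc : IsLocCocycle P a c) (hpeu : IsPeu p P c) (ℓ : k →+ ZMod p) :
    ∃ y, KRel P ζ (fun σ => ℓ (c σ)) y := by
  obtain ⟨h1, h2⟩ := comp_cocycle ha hc ℓ
  exact KRel.exists_of_unit hp hP hζ h1 h2 (hpeu ζ hζ ℓ)

/-- The invariant (a choice). -/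
def Yv (P : ValuationSubring Qb) (ζ : Qb) {f : ℕ} (ℓ : Fin f → (k →+ ZMod p)) (c : GQ → k)
    (i : Fin f) : ResidueField P :=
  Classical.epsilon fun y => KRel P ζ (fun σ => ℓ i (c σ)) y

theorem Yv_spec {ζ : Qb} {f : ℕ} {ℓ : Fin f → (k →+ ZMod p)} {i : Fin f}
    (h : ∃ y, KRel P ζ (fun σ => ℓ i (c σ)) y) :
    KRel P ζ (fun σ => ℓ i (c σ)) (Yv P ζ ℓ c i) :=
  Classical.epsilon_spec h

/-- Two cocycles with the same invariant differ by a coboundary. -/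
theorem coboundary_of_KRel_eq [CharP k p] (hp : p.Prime) (hp2 : p ≠ 2) (hP : P.LiesOverPrime p)
    {ζ : Qb} (hζ : IsPrimitiveRoot ζ p) (ha : IsOrdChar p P a) {c' : GQ → k}
    (hc : IsLocCocycle P a c) (hc' : IsLocCocycle P a c') {f : ℕ} {b : Fin f → k}
    {ℓ : Fin f → (k →+ ZMod p)} (hb : ∀ y : k, ∑ i, (ℓ i y).val • b i = y)
    {Y : Fin f → ResidueField P} (h : ∀ i, KRel P ζ (fun σ => ℓ i (c σ)) (Y i))
    (h' : ∀ i, KRel P ζ (fun σ => ℓ i (c' σ)) (Y i)) :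
    ∃ m : k, ∀ σ ∈ P.decompositionSubgroup ℚ, c σ - c' σ = (a σ - 1) * m := by
  haveI : NeZero p := ⟨hp.ne_zero⟩
  haveI : CharP (ResidueField P) p := charP_residue hp hP
  have hζ1 : ζ ^ p = 1 := hζ.pow_eq_one
  apply coboundary_of_vanish hp hp2 hP hζ ha (locCocycle_sub hc hc')
  intro σ hσ hσζ
  have hi : ∀ i, ℓ i (c σ - c' σ) = 0 := by
    intro i
    have h1 := KRel.add hζ1 hP (h i) (KRel.nsmul hζ1 hP (h' i) (p - 1))
    have h2 : Y i + (p - 1) • Y i = 0 := by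
      rw [← succ_nsmul', Nat.sub_add_cancel hp.one_le, nsmul_eq_mul, CharP.cast_eq_zero,
        zero_mul]
    rw [h2] at h1
    have h3 := KRel.ker hp hp2 hP hζ h1 σ hσ hσζ
    simp only [Pi.add_apply, Pi.smul_apply] at h3
    have h4 : (p - 1) • ℓ i (c' σ) = -ℓ i (c' σ) := by
      have h5 : (p - 1) • ℓ i (c' σ) + ℓ i (c' σ) = 0 := by
        rw [← succ_nsmul, Nat.sub_add_cancel hp.one_le, nsmul_eq_mul, CharP.cast_eq_zero,
          zero_mul]
      exact eq_neg_of_add_eq_zero_left h5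
    rw [h4] at h3
    rw [map_sub, sub_eq_add_neg]
    exact h3
  show c σ - c' σ = 0
  rw [← hb (c σ - c' σ)]
  exact Finset.sum_eq_zero fun i _ => by rw [hi i, ZMod.val_zero, zero_smul]

/-- The invariant is a fixed point of the Frobenius twist. -/
theorem fixed_of_KRel [Fact p.Prime] [CharP k p] [CharP (ResidueField P) p]
    (hP : P.LiesOverPrime p) {ζ : Qb}
    (hζ : IsPrimitiveRoot ζ p) (ha : IsOrdChar p P a) (hc : IsLocCocycle P a c) {φ : GQ}
    (hφ : P.IsFrobeniusAt φ p) {n : ℕ} (hn : IsCycExp p φ n) {f : ℕ} {b : Fin f → k}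
    {ℓ : Fin f → (k →+ ZMod p)} (hb : ∀ y : k, ∑ i, (ℓ i y).val • b i = y)
    {Y : Fin f → ResidueField P} (h : ∀ i, KRel P ζ (fun σ => ℓ i (c σ)) (Y i)) :
    frobT (ResidueField P) p (fun i j => (ℓ i (a φ * (n : k)⁻¹ * b j)).val) Y = Y := by
  have hp : p.Prime := Fact.out
  haveI : NeZero p := ⟨hp.ne_zero⟩
  have hζ1 : ζ ^ p = 1 := hζ.pow_eq_one
  have hφD : φ ∈ P.decompositionSubgroup ℚ := hφ.mem_decompositionSubgroup
  funext i
  rw [frobT_apply]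
  have hsum := KRel.sum hζ1 hP Finset.univ
    (fun j => (ℓ i (a φ * (n : k)⁻¹ * b j)).val • (fun σ => ℓ j (c σ)))
    (fun j => (ℓ i (a φ * (n : k)⁻¹ * b j)).val • Y j)
    (fun j _ => KRel.nsmul hζ1 hP (h j) _)
  have hcongr1 : KRel P ζ (fun σ => ℓ i (a φ * (n : k)⁻¹ * c σ))
      (∑ j, (ℓ i (a φ * (n : k)⁻¹ * b j)).val • Y j) := by
    refine KRel.congr (fun σ _ _ => ?_) hsum
    rw [Finset.sum_apply]
    simp only [Pi.smul_apply]
    conv_rhs => rw [← hb (c σ), Finset.mul_sum, map_sum]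
    refine Finset.sum_congr rfl fun j _ => ?_
    rw [mul_smul_comm, map_nsmul, nsmul_eq_mul, nsmul_eq_mul, ZMod.natCast_zmod_val,
      ZMod.natCast_zmod_val, mul_comm]
  have hfrob := KRel.frob hζ1 hφ hn hcongr1
  have hcongr2 : KRel P ζ (fun σ => ℓ i (c σ))
      ((∑ j, (ℓ i (a φ * (n : k)⁻¹ * b j)).val • Y j) ^ p) := by
    refine KRel.congr (fun σ hσ hσζ => ?_) hfrob
    show (n : ZMod p) * ℓ i (a φ * (n : k)⁻¹ * c (φ⁻¹ * σ * φ)) = ℓ i (c σ)
    rw [locCocycle_conj hc ha.toIsLocChar hφD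
      (Fermat.Agent.A2.H708.mem_decomposition_of_mem_inertiaIn P hσ)
      (ordChar_eq_one ha hζ hσ hσζ), ← map_natCast_mul]
    congr 1
    have hn0 : (n : k) ≠ 0 := isCycExp_natCast_ne_zero hp hζ hn
    have ha0 : a φ ≠ 0 := (locChar_inv ha.toIsLocChar hφD).1
    field_simp
  exact KRel.unique hp hP hζ hcongr2 (h i)

end main

/-! ## The theorem -/

/-- **(KUM)** of `H906/FlatOSpec.lean`: the peu ramifié classes in `H¹(D_P, k(a))`, `a|_{I_P}`
cyclotomic, span at most one dimension. -/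
theorem kum : Fermat.Agent.S56.H906.KumStatement := by
  intro p hpF hp2 k _ _ _ P hP a ha
  have hp : p.Prime := hpF.out
  haveI : NeZero p := ⟨hp.ne_zero⟩
  haveI : NeZero (p : ℚ) := ⟨by exact_mod_cast hp.ne_zero⟩
  obtain ⟨ζ, hζ⟩ := HasEnoughRootsOfUnity.exists_primitiveRoot Qb p
  obtain ⟨φ, hφ⟩ := Fermat.Agent.Lib.Cheb.H643.exists_isFrobeniusAt p hp P hP
  obtain ⟨n, hn⟩ := Fermat.Agent.S56.H786.exists_isCycExp hζ φ
  obtain ⟨f, b, ℓ, hb, hcard⟩ := exists_zmod_basis p k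
  haveI : CharP (ResidueField P) p := charP_residue hp hP
  obtain ⟨hfin, hcardS⟩ := card_fixed_le hp.one_lt
    (frobT (ResidueField P) p (fun i j => (ℓ i (a φ * (n : k)⁻¹ * b j)).val))
    (frobT_smul _)
  haveI := hfin
  rw [Module.finrank_fin_fun] at hcardS
  have hY : ∀ c, IsLocCocycle P a c → IsPeu p P c →
      ∀ i, KRel P ζ (fun σ => ℓ i (c σ)) (Yv P ζ ℓ c i) :=
    fun c hc hpeu i => Yv_spec (exists_KRel hp hP hζ ha hc hpeu (ℓ i))
  have hfix : ∀ c, IsLocCocycle P a c → IsPeu p P c →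
      frobT (ResidueField P) p (fun i j => (ℓ i (a φ * (n : k)⁻¹ * b j)).val) (Yv P ζ ℓ c) =
        Yv P ζ ℓ c :=
    fun c hc hpeu => fixed_of_KRel hP hζ ha hc hφ hn hb (hY c hc hpeu)
  have hK : ∀ c c', IsLocCocycle P a c → IsPeu p P c → IsLocCocycle P a c' → IsPeu p P c' →
      Yv P ζ ℓ c = Yv P ζ ℓ c' →
      ∃ m : k, ∀ σ ∈ P.decompositionSubgroup ℚ, c σ - c' σ = (a σ - 1) * m := by
    intro c c' hc hpeu hc' hpeu' heq
    refine coboundary_of_KRel_eq hp hp2 hP hζ ha hc hc' hb (hY c hc hpeu) (fun i => ?_)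
    rw [heq]
    exact hY c' hc' hpeu' i
  by_cases hex : ∃ c₁, IsLocCocycle P a c₁ ∧ IsPeu p P c₁ ∧
      ¬ ∃ m : k, ∀ σ ∈ P.decompositionSubgroup ℚ, c₁ σ = (a σ - 1) * m
  · obtain ⟨c₁, hc₁, hpeu₁, hnc⟩ := hex
    refine ⟨c₁, fun c hc hpeu => ?_⟩
    let g : k → {x : Fin f → ResidueField P //
        frobT (ResidueField P) p (fun i j => (ℓ i (a φ * (n : k)⁻¹ * b j)).val) x = x} :=
      fun x => ⟨Yv P ζ ℓ (fun σ => x * c₁ σ),
        hfix _ (locCocycle_smul hc₁ x) (isPeu_smul hpeu₁ x)⟩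
    have hginj : Function.Injective g := by
      intro x x' hxx
      by_contra hne
      have heq : Yv P ζ ℓ (fun σ => x * c₁ σ) = Yv P ζ ℓ (fun σ => x' * c₁ σ) :=
        congrArg Subtype.val hxx
      obtain ⟨m, hm⟩ := hK _ _ (locCocycle_smul hc₁ x) (isPeu_smul hpeu₁ x)
        (locCocycle_smul hc₁ x') (isPeu_smul hpeu₁ x') heq
      apply hnc
      have hxx' : x - x' ≠ 0 := sub_ne_zero.mpr hne
      refine ⟨m / (x - x'), fun σ hσ => ?_⟩
      have h1 : x * c₁ σ - x' * c₁ σ = (a σ - 1) * m := hm σ hσ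
      field_simp
      linear_combination h1
    have hbij := hginj.bijective_of_nat_card_le (by rw [hcard]; exact hcardS)
    obtain ⟨x, hx⟩ := hbij.2 ⟨Yv P ζ ℓ c, hfix c hc hpeu⟩
    have heq : Yv P ζ ℓ (fun σ => x * c₁ σ) = Yv P ζ ℓ c := congrArg Subtype.val hx
    obtain ⟨m, hm⟩ := hK c _ hc hpeu (locCocycle_smul hc₁ x) (isPeu_smul hpeu₁ x) heq.symm
    refine ⟨x, m, fun σ hσ => ?_⟩
    have h1 : c σ - x * c₁ σ = (a σ - 1) * m := hm σ hσ
    linear_combination h1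
  · refine ⟨fun _ => 0, fun c hc hpeu => ?_⟩
    by_contra hcon
    apply hex
    refine ⟨c, hc, hpeu, fun ⟨m, hm⟩ => hcon ⟨0, m, fun σ hσ => ?_⟩⟩
    rw [hm σ hσ]
    ring

end Fermat.Agent.S56.H734

end
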